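import Fermat.Agent.Ribet.H399.CuspCore
import Fermat.Agent.A2.T1.H669.T2
import Fermat.Agent.A2.T1.H669.T1Core
import Fermat.Agent.A2.IF.H429.IF
import Fermat.Agent.Ribet.H884.EisAt

/-!
# Row 38, W-EIS leaf CUSP (helper399): CUSP-GEN and `CuspPurity` for `p ≥ 5`

* `cusp_gen_mul` : level `M * p` (series form): `g ∈ ℚ̄(X₀(Mp))`, `m ∣ div g` (`m > 0` ARBITRARY),
  `r` a reduction of `g` on `C∞` (`H997.IsRedSer`), `h ∈ k(X₀(M))` with expansion `r`, `Q` a
  cuspidal place of `k(X₀(M))` ⟹ `m ∣ ord_Q h`.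
* `cuspGen5` : the same at level `p * M'` for `IsRedInf` (helper644's CUSP-GEN shape).
* `cuspGen5_zero` : the same for `IsRedZero` (apply `cuspGen5` to `w_N g`).
* **`cuspPurity5`**, **`cuspPurity5Leaf : H884.CuspPurity5Statement`** : CUSP for `p ≥ 5`.

(`p ≥ 5` because the good-reduction input `A2.Top.H216.goodRedStatement` at level `M'` needs
`2 ∣ M'` for `p = 3` and `3 ∣ M'` for `p = 2`.)
-/

set_option autoImplicit false
set_option linter.unusedSectionVars false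
set_option linter.style.haveILetI false
set_option linter.unusedVariables false
set_option synthInstance.maxHeartbeats 400000
set_option maxHeartbeats 1600000

noncomputable section

namespace Fermat.Agent.Ribet.H399

open AlgebraicCurve ModularCurve HahnSeries
open Fermat.Agent.S24 Fermat.Agent.A2.H708 Fermat.Agent.A2.H528 Fermat.Agent.A2.H129
open Fermat.Agent.Ribet.H884 Fermat.Agent.Ribet.H997
open Fermat.Agent.A2

section Gen

variable {M p : ℕ} [NeZero M] [NeZero p] {A : ValuationSubring Kbar}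

/-- **CUSP-GEN, level `M * p`.** -/
theorem cusp_gen_mul (hp : p.Prime) (hp5 : 5 ≤ p) (hpM : ¬ p ∣ M) (hA : A.LiesOverPrime p)
    (m : ℕ) (hm : 0 < m) (g : ↥(modularFunctionFieldBar (M * p))) (hg0 : g ≠ 0)
    (hdiv : ∀ v : Place Kbar ↥(modularFunctionFieldBar (M * p)), (m : ℤ) ∣ v.ord g)
    (r : LaurentSeries (kA A)) (hr : IsRedSer A (g : LaurentSeries Kbar) r)
    (h : modularFunctionFieldFullC (kA A) M) (hh : (h : LaurentSeries (kA A)) = r)
    (Q : Place (kA A) (modularFunctionFieldFullC (kA A) M))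
    (hQ : Q.ord (jC (kA A) M) < 0) : (m : ℤ) ∣ Q.ord h := by
  obtain ⟨S, hS⟩ := T1.H669.exists_finset_descent (modularFunctionFieldFull (M * p)) g
  obtain ⟨E, hSE, hgood⟩ := IF.H429.exists_goodField p hp A hA S
  obtain ⟨y, hy⟩ := hS E hSE
  have hy0 : y ≠ 0 := by
    rintro rfl
    rw [map_zero] at hy
    exact hg0 hy.symm
  have hdivE : DivisibleDiv E m y :=
    T1.H669.divisibleDiv_of_ord E (modularFunctionFieldFull (M * p)) m y hy0
      (by rw [hy]; exact hdiv)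
  obtain ⟨r₀, hr₀, hord⟩ := cusp_core_E hp hp5 hpM hA hgood m hm y hy0 hdivE Q hQ
  have hyg : coeffMap (algebraMap E Kbar) ((y : Mod.FE E (M * p)) : LaurentSeries E) =
      (g : LaurentSeries Kbar) := congrArg Subtype.val hy
  rw [hyg] at hr₀
  obtain ⟨c, hc, hcr⟩ := hr₀.unique hr
  have hh' : h = algebraMap (kA A) (modularFunctionFieldFullC (kA A) M) c * r₀ := by
    apply Subtype.ext
    rw [hh, hcr, IntermediateField.coe_mul, coe_algebraMap_fullC]
  have hr₀0 : r₀ ≠ 0 := by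
    rintro rfl
    obtain ⟨c₀, U₁, U₂, -, h₁, -, -, hr'⟩ := hr₀
    apply h₁
    rw [← hr']
    show (0 : LaurentSeries (kA A)) * _ = 0
    rw [zero_mul]
  have hc0 : algebraMap (kA A) (modularFunctionFieldFullC (kA A) M) c ≠ 0 := by
    simpa using hc
  rw [hh', Place.ord_mul Q hc0 hr₀0, ord_algebraMap_eq_zero, zero_add]
  exact hord

end Gen

/-- **CUSP-GEN** (shape of helper644 #9247), `q ≥ 5`: reductions on `C∞`. -/
theorem cuspGen5 (m q M' : ℕ) [NeZero M'] [NeZero q] [NeZero (q * M')] (hq : q.Prime)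
    (hq5 : 5 ≤ q) (hqM : ¬ q ∣ M') (hm : 0 < m)
    (A : ValuationSubring Kbar) (hA : A.LiesOverPrime q)
    (g : FF (q * M')) (hg0 : g ≠ 0)
    (hdiv : ∀ v : Place Kbar (FF (q * M')), (m : ℤ) ∣ v.ord g)
    (r : LaurentSeries (kA A)) (hr : IsRedInf (q * M') A g r)
    (h : modularFunctionFieldFullC (kA A) M') (hh : (h : LaurentSeries (kA A)) = r)
    (Q : Place (kA A) (modularFunctionFieldFullC (kA A) M'))
    (hQ : Q.ord (jC (kA A) M') < 0) : (m : ℤ) ∣ Q.ord h := by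
  have key : ∀ (N : ℕ) (hN : N = M' * q) (g : ↥(modularFunctionFieldBar N)), g ≠ 0 →
      (∀ v : Place Kbar ↥(modularFunctionFieldBar N), (m : ℤ) ∣ v.ord g) →
      IsRedSer A (g : LaurentSeries Kbar) r → (m : ℤ) ∣ Q.ord h := by
    intro N hN g hg0 hdiv hr
    subst hN
    exact cusp_gen_mul hq hq5 hqM hA m hm g hg0 hdiv r hr h hh Q hQ
  exact key (q * M') (Nat.mul_comm q M') g hg0 hdiv hr

/-- the divisor of `w_N g` is divisible by `m` if the divisor of `g` is. -/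
theorem dvd_ord_wF (N : ℕ) [NeZero N] (m : ℕ) (g : FF N)
    (hdiv : ∀ v : Place Kbar (FF N), (m : ℤ) ∣ v.ord g) (v : Place Kbar (FF N)) :
    (m : ℤ) ∣ v.ord (wF N g) := by
  have h := Place.ord_smul (wF N) ((wF N)⁻¹ • v) g
  rw [smul_inv_smul] at h
  rw [h]
  exact hdiv _

/-- **CUSP-GEN on `C₀`**, `q ≥ 5`. -/
theorem cuspGen5_zero (m q M' : ℕ) [NeZero M'] [NeZero q] [NeZero (q * M')] (hq : q.Prime)
    (hq5 : 5 ≤ q) (hqM : ¬ q ∣ M') (hm : 0 < m)
    (A : ValuationSubring Kbar) (hA : A.LiesOverPrime q)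
    (g : FF (q * M')) (hg0 : g ≠ 0)
    (hdiv : ∀ v : Place Kbar (FF (q * M')), (m : ℤ) ∣ v.ord g)
    (r : LaurentSeries (kA A)) (hr : IsRedZero (q * M') A g r)
    (h : modularFunctionFieldFullC (kA A) M') (hh : (h : LaurentSeries (kA A)) = r)
    (Q : Place (kA A) (modularFunctionFieldFullC (kA A) M'))
    (hQ : Q.ord (jC (kA A) M') < 0) : (m : ℤ) ∣ Q.ord h :=
  cuspGen5 m q M' hq hq5 hqM hm A hA (wF (q * M') g)
    (by rwa [Ne, map_eq_zero_iff _ (wF (q * M')).injective])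
    (dvd_ord_wF (q * M') m g hdiv) r hr h hh Q hQ

/-- **CUSP for `p ≥ 5`**: `H884.CuspPurityStatement` with the extra hypothesis `5 ≤ p`. -/
theorem cuspPurity5 (p M' : ℕ) [NeZero M'] [NeZero p] [NeZero (p * M')] (hp : p.Prime)
    (hp5 : 5 ≤ p) (hpM : ¬ p ∣ M') (A : ValuationSubring Kbar) (hA : A.LiesOverPrime p)
    (g : FF (p * M')) (y : JZero (p * M')) (hK : IsKummerGen (p * M') p g y)
    (hNG : NodeGen p M' A g) : FinGen p M' A g := by
  obtain ⟨r₁, r₂, h1, h2, h3, h4⟩ := hNG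
  obtain ⟨hg0, D, -, hD⟩ := hK
  have hdiv : ∀ v : Place Kbar (FF (p * M')), (p : ℤ) ∣ v.ord g := fun v => ⟨_, hD v⟩
  refine ⟨r₁, r₂, h1, h2, ?_, ?_⟩
  · obtain ⟨h, hh, h0, hfin⟩ := h3
    refine ⟨h, hh, h0, fun Q => ?_⟩
    by_cases hQ : 0 ≤ Q.ord (jC (kA A) M')
    · exact hfin Q hQ
    · exact cuspGen5 p p M' hp hp5 hpM hp.pos A hA g hg0 hdiv r₁ h1 h hh Q (not_le.mp hQ)
  · obtain ⟨h, hh, h0, hfin⟩ := h4
    refine ⟨h, hh, h0, fun Q => ?_⟩
    by_cases hQ : 0 ≤ Q.ord (jC (kA A) M')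
    · exact hfin Q hQ
    · exact cuspGen5_zero p p M' hp hp5 hpM hp.pos A hA g hg0 hdiv r₂ h2 h hh Q (not_le.mp hQ)

/-- **W-EIS leaf CUSP**, in the exact shape consumed by `H884.eisSlope_of_frontier5`. -/
theorem cuspPurity5Leaf : CuspPurity5Statement :=
  fun p M' _ _ _ hp hp5 hpM A hA g y hK hNG => cuspPurity5 p M' hp hp5 hpM A hA g y hK hNG

end Fermat.Agent.Ribet.H399

end
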