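import Fermat.Agent.Ribet.H704.I6Inst
import Fermat.Agent.Ribet.H132.NodeVal

/-!
# RIBET wall-p, I6 spec v3: leaf SPLIT-LOC, VERBATIM (helper399)

`splitLoc : I6.SplitLocStatement` (frozen in `Ribet/H704/I6Inst.lean`).

In a node ring `R` (normal noetherian local, branches `𝔭₁, 𝔭₂`, `𝔭₁ ⊓ 𝔭₂ = (π)`), `K = Frac R`:
a horizontally `p`-divisible `u ∈ Kˣ` which is a `p`-th power in the `π`-adic completions of both
branches is `u = g · d ^ p` with `d ∈ Kˣ`, `g ∈ R ∖ (𝔭₁ ∪ 𝔭₂)` satisfying the hypotheses of WPUR.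

Proof (elementwise, on top of the node-ring library `Ribet/H132/NodeVal.lean`):
* `p ∣ vᵢ(u)` from `SplitAt` at `k = 1`;
* `u₁ := a b ^ (p-1) = u b ^ p ∈ R` for `u = a / b`; `vᵢ(u₁) = p nᵢ`, `nᵢ ≥ 0`;
* `Z := π + x²` has `(v₁, v₂) = (0, 1)`, `Z' := π + y²` has `(v₁, v₂) = (1, 0)`;
  `u' := u₁ Z ^ (p (c - n₂)) Z' ^ (p (c - n₁))` has `v₁ = v₂ = p c`, `c = max n₁ n₂`;
* `π ^ (p c) ∣ u'` in `R` by induction (`w ∈ 𝔭₁ ⊓ 𝔭₂ = (π)`), `g := u' / π ^ (p c)`;
* `HorDiv` by `H132.horDiv_of_divisible`; the split conditions are transported by hand.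
-/

set_option autoImplicit false
set_option linter.unusedSectionVars false
set_option linter.style.haveILetI false

namespace Fermat.Agent.Ribet.H399

open Fermat.Agent.Ribet.H704 Fermat.Agent.Ribet.H132 Fermat.Agent.A2.Alg.H132

section Vert

variable {R : Type*} [CommRing R] [IsDomain R] [IsNoetherianRing R] [IsIntegrallyClosed R]
variable {K : Type*} [Field K] [Algebra R K] [IsFractionRing R K]
variable {π : R} {𝔭 𝔮 : Ideal R}

theorem algebraMap_ne_zero_h399 {a : R} (ha : a ≠ 0) : algebraMap R K a ≠ 0 := fun h0 =>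
  ha ((IsFractionRing.injective R K) (by rw [h0, map_zero]))

/-- The branch valuation of an element of `R ∖ 𝔭` is `0`. -/
theorem bv_of_notMem (h : VertData π 𝔭 𝔮) {a : R} (ha : a ∉ 𝔭) :
    branchVal (K := K) h (algebraMap R K a) = 0 :=
  branchVal_eq h (valAt_of_notMem h ha)

/-- The branch valuation of a power. -/
theorem bv_pow (h : VertData π 𝔭 𝔮) {u : K} (hu : u ≠ 0) (n : ℕ) :
    branchVal h (u ^ n) = n * branchVal h u :=
  branchVal_eq h (valAt_pow h (branchVal_spec h hu) n)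

/-- The branch valuation of an inverse. -/
theorem bv_inv (h : VertData π 𝔭 𝔮) {u : K} (hu : u ≠ 0) :
    branchVal h u⁻¹ = - branchVal h u :=
  branchVal_eq h (valAt_inv h (branchVal_spec h hu))

/-- `ValAt` of an element of the ring, in ring form, when the valuation is a natural number. -/
theorem valAt_nat_iff (_h : VertData π 𝔭 𝔮) (w : R) (n : ℕ) :
    I6.ValAt K 𝔭 π (algebraMap R K w) n ↔ ∃ a b : R, a ∉ 𝔭 ∧ b ∉ 𝔭 ∧ w * b = π ^ n * a := by
  constructor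
  · rintro ⟨a, b, ha, hb, hab⟩
    refine ⟨a, b, ha, hb, IsFractionRing.injective R K ?_⟩
    rw [map_mul, map_mul, map_pow, hab, zpow_natCast]
  · rintro ⟨a, b, ha, hb, hab⟩
    refine ⟨a, b, ha, hb, ?_⟩
    rw [zpow_natCast, ← map_pow, ← map_mul, ← map_mul, hab]

/-- Elements of the ring have nonnegative branch valuation. -/
theorem bv_nonneg (h : VertData π 𝔭 𝔮) {w : R} (hw : w ≠ 0) :
    0 ≤ branchVal (K := K) h (algebraMap R K w) := by
  have hp := h.prime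
  have hπK : algebraMap R K π ≠ 0 := algebraMap_ne_zero_h399 h.w_ne
  by_contra hneg
  rw [not_le] at hneg
  obtain ⟨a, b, ha, hb, hab⟩ := branchVal_spec (K := K) h (algebraMap_ne_zero_h399 hw)
  obtain ⟨n, hn⟩ : ∃ n : ℕ, branchVal (K := K) h (algebraMap R K w) = -((n : ℤ) + 1) := by
    obtain ⟨n, hn⟩ := Int.eq_ofNat_of_zero_le
      (by omega : 0 ≤ -branchVal (K := K) h (algebraMap R K w) - 1)
    exact ⟨n, by omega⟩
  rw [hn, zpow_neg] at hab
  have e : algebraMap R K (w * b * π ^ (n + 1)) = algebraMap R K a := by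
    rw [map_mul, map_mul, map_pow, hab]
    have : (algebraMap R K π) ^ ((n : ℤ) + 1) = (algebraMap R K π) ^ (n + 1) := by
      rw [← zpow_natCast]; push_cast; rfl
    rw [this]
    have h0 : (algebraMap R K π) ^ (n + 1) ≠ 0 := pow_ne_zero _ hπK
    field_simp
  have e' := IsFractionRing.injective R K e
  exact ha (e' ▸ 𝔭.mul_mem_left _ (𝔭.pow_mem_of_mem h.w_mem _ (Nat.succ_pos n)))

/-- An element of the ring of positive branch valuation lies in the branch. -/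
theorem mem_of_bv_pos (h : VertData π 𝔭 𝔮) {w : R} (hw : w ≠ 0)
    (hpos : 1 ≤ branchVal (K := K) h (algebraMap R K w)) : w ∈ 𝔭 := by
  have hp := h.prime
  obtain ⟨n, hn⟩ : ∃ n : ℕ, branchVal (K := K) h (algebraMap R K w) = ((n + 1 : ℕ) : ℤ) := by
    obtain ⟨n, hn⟩ := Int.eq_ofNat_of_zero_le
      (by omega : 0 ≤ branchVal (K := K) h (algebraMap R K w) - 1)
    exact ⟨n, by push_cast; omega⟩
  have hv := branchVal_spec (K := K) h (algebraMap_ne_zero_h399 hw)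
  rw [hn] at hv
  obtain ⟨a, b, ha, hb, hab⟩ := (valAt_nat_iff h w (n + 1)).1 hv
  have : w * b ∈ 𝔭 := hab ▸ 𝔭.mul_mem_right _ (𝔭.pow_mem_of_mem h.w_mem _ (Nat.succ_pos n))
  exact (hp.mem_or_mem this).resolve_right hb

/-- An element of the ring of branch valuation `0` does not lie in the branch. -/
theorem notMem_of_bv_zero (h : VertData π 𝔭 𝔮) {w : R} (hw : w ≠ 0)
    (h0 : branchVal (K := K) h (algebraMap R K w) = 0) : w ∉ 𝔭 := by
  have hp := h.prime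
  intro hmem
  have hv := branchVal_spec (K := K) h (algebraMap_ne_zero_h399 hw)
  rw [h0] at hv
  obtain ⟨a, b, ha, hb, hab⟩ := (valAt_nat_iff h w 0).1 (by simpa using hv)
  rw [pow_zero, one_mul] at hab
  exact ha (hab ▸ 𝔭.mul_mem_right _ hmem)

/-- An element of the branch has positive branch valuation. -/
theorem bv_pos_of_mem (h : VertData π 𝔭 𝔮) {w : R} (hw : w ≠ 0) (hmem : w ∈ 𝔭) :
    1 ≤ branchVal (K := K) h (algebraMap R K w) := by
  have h0 := bv_nonneg (K := K) h hw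
  by_contra hlt
  have : branchVal (K := K) h (algebraMap R K w) = 0 := by omega
  exact notMem_of_bv_zero h hw this hmem

/-- `π + t²` has branch valuation `1` along `𝔭` if `t ∈ 𝔭`. -/
theorem bv_pi_add_sq (h : VertData π 𝔭 𝔮) {t : R} (ht : t ∈ 𝔭) (hne : π + t ^ 2 ≠ 0) :
    branchVal (K := K) h (algebraMap R K (π + t ^ 2)) = 1 := by
  have hp := h.prime
  by_cases ht0 : t = 0
  · subst ht0
    have : (π : R) + 0 ^ 2 = π := by ring
    rw [this]
    exact branchVal_pi h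
  have hpos := bv_pos_of_mem (K := K) h ht0 ht
  obtain ⟨n, hn⟩ : ∃ n : ℕ, branchVal (K := K) h (algebraMap R K t) = ((n + 1 : ℕ) : ℤ) := by
    obtain ⟨n, hn⟩ := Int.eq_ofNat_of_zero_le
      (by omega : 0 ≤ branchVal (K := K) h (algebraMap R K t) - 1)
    exact ⟨n, by push_cast; omega⟩
  have hv := branchVal_spec (K := K) h (algebraMap_ne_zero_h399 ht0)
  rw [hn] at hv
  obtain ⟨a, b, ha, hb, hab⟩ := (valAt_nat_iff h t (n + 1)).1 hv
  have hv1 : I6.ValAt K 𝔭 π (algebraMap R K (π + t ^ 2)) ((1 : ℕ) : ℤ) := by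
    refine (valAt_nat_iff h _ 1).2 ⟨b ^ 2 + π ^ (2 * n + 1) * a ^ 2, b ^ 2, ?_, ?_, ?_⟩
    · intro hmem
      have h2 : π ^ (2 * n + 1) * a ^ 2 ∈ 𝔭 :=
        𝔭.mul_mem_right _ (𝔭.pow_mem_of_mem h.w_mem _ (Nat.succ_pos _))
      have h3 : b ^ 2 ∈ 𝔭 := by
        have := 𝔭.sub_mem hmem h2
        simpa using this
      exact hb (hp.mem_of_pow_mem _ h3)
    · intro hmem
      exact hb (hp.mem_of_pow_mem _ hmem)
    · have : (t * b) ^ 2 = (π ^ (n + 1) * a) ^ 2 := by rw [hab]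
      linear_combination this
  have := branchVal_eq h hv1
  simpa using this

end Vert

section Node

variable {R : Type*} [CommRing R] [IsDomain R] [IsIntegrallyClosed R] [IsNoetherianRing R]
  [IsLocalRing R]
variable {K : Type*} [Field K] [Algebra R K] [IsFractionRing R K]
variable {𝔭₁ 𝔭₂ : Ideal R} {π x y : R}

/-- Division by `π ^ n` in a node ring: an element with both branch valuations `≥ n` is a
multiple of `π ^ n`. -/
theorem exists_eq_pi_pow_mul (hN : I6.IsNode 𝔭₁ 𝔭₂ π x y) (n : ℕ) :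
    ∀ w : R, w ≠ 0 →
      (n : ℤ) ≤ branchVal (K := K) (vertData_left hN) (algebraMap R K w) →
      (n : ℤ) ≤ branchVal (K := K) (vertData_right hN) (algebraMap R K w) →
      ∃ g : R, w = π ^ n * g := by
  have hπ0 : π ≠ 0 := isNode_pi_ne_zero hN
  induction n with
  | zero => intro w _ _ _; exact ⟨w, by simp⟩
  | succ n ih =>
    intro w hw h1 h2
    have hm1 : w ∈ 𝔭₁ := mem_of_bv_pos (K := K) (vertData_left hN) hw (by push_cast at h1; omega)
    have hm2 : w ∈ 𝔭₂ := mem_of_bv_pos (K := K) (vertData_right hN) hw (by push_cast at h2; omega)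
    have hmem : w ∈ 𝔭₁ ⊓ 𝔭₂ := ⟨hm1, hm2⟩
    rw [hN.inf_eq, Ideal.mem_span_singleton] at hmem
    obtain ⟨w', rfl⟩ := hmem
    have hw' : w' ≠ 0 := fun h0 => hw (by rw [h0, mul_zero])
    have hπK : algebraMap R K π ≠ 0 := algebraMap_ne_zero_h399 hπ0
    have hw'K : algebraMap R K w' ≠ 0 := algebraMap_ne_zero_h399 hw'
    rw [map_mul, branchVal_mul _ _ _ hπK hw'K, branchVal_pi] at h1 h2
    obtain ⟨g, hg⟩ := ih w' hw' (by push_cast at h1; omega) (by push_cast at h2; omega)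
    exact ⟨g, by rw [hg]; ring⟩

/-- The valuation along a branch of a `p`-th power in the completion is divisible by `p`. -/
theorem exists_bv_eq_mul_of_split {𝔭 𝔮 : Ideal R} (h : VertData π 𝔭 𝔮) {p : ℕ} (hp : p ≠ 0)
    {u : K} (hu : u ≠ 0) (hs : I6.SplitAt K 𝔭 π p u) :
    ∃ e : ℤ, branchVal h u = p * e := by
  have hpr := h.prime
  obtain ⟨H, r, t, hr, hH⟩ := hs 1
  have hr0 : r ≠ 0 := fun h0 => hr (h0 ▸ 𝔭.zero_mem)
  have hrK : algebraMap R K r ≠ 0 := algebraMap_ne_zero_h399 hr0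
  have hrt : r + π ^ 1 * t ∉ 𝔭 := by
    intro hmem
    have : π ^ 1 * t ∈ 𝔭 := 𝔭.mul_mem_right _ (by simpa using h.w_mem)
    have := 𝔭.sub_mem hmem this
    exact hr (by simpa using this)
  have hrt0 : r + π ^ 1 * t ≠ 0 := fun h0 => hrt (h0 ▸ 𝔭.zero_mem)
  have hrtK : algebraMap R K (r + π ^ 1 * t) ≠ 0 := algebraMap_ne_zero_h399 hrt0
  have hH' : u * algebraMap R K r = H ^ p * algebraMap R K (r + π ^ 1 * t) := by
    rw [hH, map_add, map_mul, map_pow]
  have hH0 : H ≠ 0 := by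
    rintro rfl
    rw [zero_pow hp, zero_mul] at hH'
    exact mul_ne_zero hu hrK hH'
  have e1 := congrArg (branchVal h) hH'
  rw [branchVal_mul h _ _ hu hrK, branchVal_mul h _ _ (pow_ne_zero _ hH0) hrtK,
    bv_of_notMem h hr, bv_of_notMem h hrt, bv_pow h hH0] at e1
  exact ⟨branchVal h H, by linarith⟩

/-- Transport of the split condition to `g = u · D ^ p ∈ R` with branch valuation `0`. -/
theorem split_ring_of_splitAt {𝔭 𝔮 : Ideal R} (h : VertData π 𝔭 𝔮) {p : ℕ} (hp : p ≠ 0)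
    {u : K} (hu : u ≠ 0) (hs : I6.SplitAt K 𝔭 π p u) {g : R} {D : K} (hD : D ≠ 0)
    (hg : algebraMap R K g = u * D ^ p) (hg𝔭 : g ∉ 𝔭) :
    ∀ k : ℕ, ∃ hh r t : R, r ∉ 𝔭 ∧ g * r ^ p - hh ^ p = π ^ k * t := by
  have hpr := h.prime
  have h1 : (1 : R) ∉ 𝔭 := fun h1 => hpr.ne_top ((Ideal.eq_top_iff_one _).2 h1)
  intro k
  rcases Nat.eq_zero_or_pos k with hk | hk
  · subst hk
    exact ⟨0, 1, g, h1, by rw [zero_pow hp]; ring⟩
  obtain ⟨H, r, t, hr, hH⟩ := hs k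
  have hr0 : r ≠ 0 := fun h0 => hr (h0 ▸ 𝔭.zero_mem)
  have hrK : algebraMap R K r ≠ 0 := algebraMap_ne_zero_h399 hr0
  have hrt : r + π ^ k * t ∉ 𝔭 := by
    intro hmem
    have : π ^ k * t ∈ 𝔭 := 𝔭.mul_mem_right _ (𝔭.pow_mem_of_mem h.w_mem _ hk)
    have := 𝔭.sub_mem hmem this
    exact hr (by simpa using this)
  have hrt0 : r + π ^ k * t ≠ 0 := fun h0 => hrt (h0 ▸ 𝔭.zero_mem)
  have hrtK : algebraMap R K (r + π ^ k * t) ≠ 0 := algebraMap_ne_zero_h399 hrt0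
  have hH' : u * algebraMap R K r = H ^ p * algebraMap R K (r + π ^ k * t) := by
    rw [hH, map_add, map_mul, map_pow]
  have hH0 : H ≠ 0 := by
    rintro rfl
    rw [zero_pow hp, zero_mul] at hH'
    exact mul_ne_zero hu hrK hH'
  -- `H' := H * D`
  have hHD0 : H * D ≠ 0 := mul_ne_zero hH0 hD
  have e2 : algebraMap R K g * algebraMap R K r =
      (H * D) ^ p * algebraMap R K (r + π ^ k * t) := by
    rw [hg, mul_pow]
    linear_combination (D ^ p) * hH'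
  have hg0 : g ≠ 0 := fun h0 => hg𝔭 (h0 ▸ 𝔭.zero_mem)
  have hgK : algebraMap R K g ≠ 0 := algebraMap_ne_zero_h399 hg0
  have e3 := congrArg (branchVal h) e2
  rw [branchVal_mul h _ _ hgK hrK, branchVal_mul h _ _ (pow_ne_zero _ hHD0) hrtK,
    bv_of_notMem h hr, bv_of_notMem h hrt, bv_of_notMem h hg𝔭, bv_pow h hHD0] at e3
  have hbv0 : branchVal h (H * D) = 0 := by
    have hp' : (p : ℤ) ≠ 0 := by exact_mod_cast hp
    have : (p : ℤ) * branchVal h (H * D) = 0 := by linarith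
    rcases mul_eq_zero.1 this with h' | h'
    · exact absurd h' hp'
    · exact h'
  have hv := branchVal_spec h hHD0
  rw [hbv0] at hv
  obtain ⟨a, b, ha, hb, hab⟩ := hv
  rw [zpow_zero, one_mul] at hab
  have hb0 : b ≠ 0 := fun h0 => hb (h0 ▸ 𝔭.zero_mem)
  have hbK : algebraMap R K b ≠ 0 := algebraMap_ne_zero_h399 hb0
  -- `g r b ^ p = a ^ p (r + π ^ k t)`
  have e4 : g * r * b ^ p = a ^ p * (r + π ^ k * t) := by
    apply IsFractionRing.injective R K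
    rw [map_mul, map_mul, map_pow, map_mul, map_pow, ← hab, mul_pow]
    linear_combination (algebraMap R K b ^ p) * e2
  obtain ⟨p', rfl⟩ := Nat.exists_eq_add_one_of_ne_zero hp
  refine ⟨a * r, r * b, a ^ (p' + 1) * t * r ^ p', fun hm => (hpr.mem_or_mem hm).elim hr hb, ?_⟩
  linear_combination (r ^ p') * e4

/-- **SPLIT-LOC** (verbatim). -/
theorem splitLoc : I6.SplitLocStatement := by
  intro R K _ _ _ _ _ _ _ _ 𝔭₁ 𝔭₂ π x y hN p hp u hu hdiv hs₁ hs₂
  have hp0 : p ≠ 0 := hp.ne_zero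
  have hppos : (0 : ℤ) < p := by exact_mod_cast hp.pos
  have V₁ := vertData_left hN
  have V₂ := vertData_right hN
  have hpr₁ := hN.prime₁
  have hpr₂ := hN.prime₂
  have hπ0 : π ≠ 0 := isNode_pi_ne_zero hN
  have hπK : algebraMap R K π ≠ 0 := algebraMap_ne_zero_h399 hπ0
  have hπ₁ : π ∈ 𝔭₁ := V₁.w_mem
  have hπ₂ : π ∈ 𝔭₂ := V₂.w_mem
  -- `p ∣ vᵢ(u)`
  obtain ⟨e₁, he₁⟩ := exists_bv_eq_mul_of_split V₁ hp0 hu hs₁
  obtain ⟨e₂, he₂⟩ := exists_bv_eq_mul_of_split V₂ hp0 hu hs₂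
  -- `u = a / b`
  obtain ⟨a, b, hb, hab⟩ := IsFractionRing.div_surjective (A := R) u
  have hb0 : b ≠ 0 := nonZeroDivisors.ne_zero hb
  have hbK : algebraMap R K b ≠ 0 := algebraMap_ne_zero_h399 hb0
  have hub : u * algebraMap R K b = algebraMap R K a := by
    rw [← hab]; field_simp
  have ha0 : a ≠ 0 := by
    rintro rfl
    rw [map_zero] at hub
    exact mul_ne_zero hu hbK hub
  obtain ⟨p', hp'⟩ := Nat.exists_eq_add_one_of_ne_zero hp0
  -- `u₁ = a b ^ (p - 1) = u b ^ p`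
  set u₁ : R := a * b ^ p' with hu₁
  have hu₁K : algebraMap R K u₁ = u * algebraMap R K b ^ p := by
    rw [hu₁, map_mul, map_pow, ← hub, hp', pow_succ]; ring
  have hu₁0 : u₁ ≠ 0 := mul_ne_zero ha0 (pow_ne_zero _ hb0)
  -- valuations of `u₁`
  have hv₁ : branchVal (K := K) V₁ (algebraMap R K u₁) =
      p * (e₁ + branchVal (K := K) V₁ (algebraMap R K b)) := by
    rw [hu₁K, branchVal_mul V₁ _ _ hu (pow_ne_zero _ hbK), bv_pow V₁ hbK, he₁]; ring
  have hv₂ : branchVal (K := K) V₂ (algebraMap R K u₁) =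
      p * (e₂ + branchVal (K := K) V₂ (algebraMap R K b)) := by
    rw [hu₁K, branchVal_mul V₂ _ _ hu (pow_ne_zero _ hbK), bv_pow V₂ hbK, he₂]; ring
  have hn₁ : 0 ≤ e₁ + branchVal (K := K) V₁ (algebraMap R K b) := by
    have := bv_nonneg (K := K) V₁ hu₁0
    rw [hv₁] at this
    exact nonneg_of_mul_nonneg_right this hppos
  have hn₂ : 0 ≤ e₂ + branchVal (K := K) V₂ (algebraMap R K b) := by
    have := bv_nonneg (K := K) V₂ hu₁0
    rw [hv₂] at this
    exact nonneg_of_mul_nonneg_right this hppos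
  obtain ⟨n₁, hn₁'⟩ := Int.eq_ofNat_of_zero_le hn₁
  obtain ⟨n₂, hn₂'⟩ := Int.eq_ofNat_of_zero_le hn₂
  rw [hn₁'] at hv₁
  rw [hn₂'] at hv₂
  -- the two elements `Z = π + x²` (`(v₁, v₂) = (0, 1)`) and `Z' = π + y²` (`(1, 0)`)
  set Z : R := π + x ^ 2 with hZ
  set Z' : R := π + y ^ 2 with hZ'
  have hZ₁ : Z ∉ 𝔭₁ := by
    intro hmem
    have : x ^ 2 ∈ 𝔭₁ := by
      have := 𝔭₁.sub_mem hmem hπ₁
      simpa [hZ] using this
    exact hN.hx₁ (hpr₁.mem_of_pow_mem _ this)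
  have hZ'₂ : Z' ∉ 𝔭₂ := by
    intro hmem
    have : y ^ 2 ∈ 𝔭₂ := by
      have := 𝔭₂.sub_mem hmem hπ₂
      simpa [hZ'] using this
    exact hN.hy₂ (hpr₂.mem_of_pow_mem _ this)
  have hZ0 : Z ≠ 0 := fun h0 => hZ₁ (h0 ▸ 𝔭₁.zero_mem)
  have hZ'0 : Z' ≠ 0 := fun h0 => hZ'₂ (h0 ▸ 𝔭₂.zero_mem)
  have hZK : algebraMap R K Z ≠ 0 := algebraMap_ne_zero_h399 hZ0
  have hZ'K : algebraMap R K Z' ≠ 0 := algebraMap_ne_zero_h399 hZ'0
  have bZ₁ : branchVal (K := K) V₁ (algebraMap R K Z) = 0 := bv_of_notMem V₁ hZ₁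
  have bZ₂ : branchVal (K := K) V₂ (algebraMap R K Z) = 1 := bv_pi_add_sq V₂ hN.hx hZ0
  have bZ'₁ : branchVal (K := K) V₁ (algebraMap R K Z') = 1 := bv_pi_add_sq V₁ hN.hy hZ'0
  have bZ'₂ : branchVal (K := K) V₂ (algebraMap R K Z') = 0 := bv_of_notMem V₂ hZ'₂
  -- equalise
  set c : ℕ := max n₁ n₂ with hc
  have hc₁ : n₁ ≤ c := le_max_left _ _
  have hc₂ : n₂ ≤ c := le_max_right _ _
  set E : R := Z ^ (c - n₂) * Z' ^ (c - n₁) with hE
  have hE0 : E ≠ 0 := mul_ne_zero (pow_ne_zero _ hZ0) (pow_ne_zero _ hZ'0)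
  have hEK : algebraMap R K E ≠ 0 := algebraMap_ne_zero_h399 hE0
  have bE₁ : branchVal (K := K) V₁ (algebraMap R K E) = ((c - n₁ : ℕ) : ℤ) := by
    rw [hE, map_mul, map_pow, map_pow,
      branchVal_mul V₁ _ _ (pow_ne_zero _ hZK) (pow_ne_zero _ hZ'K), bv_pow V₁ hZK,
      bv_pow V₁ hZ'K, bZ₁, bZ'₁]
    ring
  have bE₂ : branchVal (K := K) V₂ (algebraMap R K E) = ((c - n₂ : ℕ) : ℤ) := by
    rw [hE, map_mul, map_pow, map_pow,
      branchVal_mul V₂ _ _ (pow_ne_zero _ hZK) (pow_ne_zero _ hZ'K), bv_pow V₂ hZK,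
      bv_pow V₂ hZ'K, bZ₂, bZ'₂]
    ring
  set u' : R := u₁ * E ^ p with hu'
  have hu'0 : u' ≠ 0 := mul_ne_zero hu₁0 (pow_ne_zero _ hE0)
  have hu'K : algebraMap R K u' ≠ 0 := algebraMap_ne_zero_h399 hu'0
  have bu'₁ : branchVal (K := K) V₁ (algebraMap R K u') = ((p * c : ℕ) : ℤ) := by
    rw [hu', map_mul, map_pow,
      branchVal_mul V₁ _ _ (algebraMap_ne_zero_h399 hu₁0) (pow_ne_zero _ hEK), bv_pow V₁ hEK,
      hv₁, bE₁]
    push_cast [Nat.cast_sub hc₁]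
    ring
  have bu'₂ : branchVal (K := K) V₂ (algebraMap R K u') = ((p * c : ℕ) : ℤ) := by
    rw [hu', map_mul, map_pow,
      branchVal_mul V₂ _ _ (algebraMap_ne_zero_h399 hu₁0) (pow_ne_zero _ hEK), bv_pow V₂ hEK,
      hv₂, bE₂]
    push_cast [Nat.cast_sub hc₂]
    ring
  -- divide by `π ^ (p c)`
  obtain ⟨g, hg⟩ := exists_eq_pi_pow_mul (K := K) hN (p * c) u' hu'0 bu'₁.ge bu'₂.ge
  have hg0 : g ≠ 0 := fun h0 => hu'0 (by rw [hg, h0, mul_zero])
  have hgK : algebraMap R K g ≠ 0 := algebraMap_ne_zero_h399 hg0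
  have hπpK : algebraMap R K (π ^ (p * c)) ≠ 0 := algebraMap_ne_zero_h399 (pow_ne_zero _ hπ0)
  have bg₁ : branchVal (K := K) V₁ (algebraMap R K g) = 0 := by
    have := bu'₁
    rw [hg, map_mul, branchVal_mul V₁ _ _ hπpK hgK, map_pow, bv_pow V₁ hπK, branchVal_pi] at this
    linarith
  have bg₂ : branchVal (K := K) V₂ (algebraMap R K g) = 0 := by
    have := bu'₂
    rw [hg, map_mul, branchVal_mul V₂ _ _ hπpK hgK, map_pow, bv_pow V₂ hπK, branchVal_pi] at this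
    linarith
  have hg₁ : g ∉ 𝔭₁ := notMem_of_bv_zero (K := K) V₁ hg0 bg₁
  have hg₂ : g ∉ 𝔭₂ := notMem_of_bv_zero (K := K) V₂ hg0 bg₂
  -- `g = u · D ^ p`, `D = b E / π ^ c`
  set D : K := algebraMap R K b * algebraMap R K E * ((algebraMap R K π) ^ c)⁻¹ with hD
  have hD0 : D ≠ 0 := mul_ne_zero (mul_ne_zero hbK hEK) (inv_ne_zero (pow_ne_zero _ hπK))
  have hgD : algebraMap R K g = u * D ^ p := by
    have h1 : algebraMap R K u' = algebraMap R K π ^ (p * c) * algebraMap R K g := by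
      rw [hg, map_mul, map_pow]
    have h2 : algebraMap R K u' = u * algebraMap R K b ^ p * algebraMap R K E ^ p := by
      rw [hu', map_mul, map_pow, hu₁K]
    have h3 : algebraMap R K π ^ (p * c) ≠ 0 := pow_ne_zero _ hπK
    have h4 : (algebraMap R K π ^ c) ^ p = algebraMap R K π ^ (p * c) := by
      rw [← pow_mul, mul_comm]
    rw [hD, mul_pow, mul_pow, inv_pow, h4]
    field_simp
    linear_combination h2 - h1
  refine ⟨g, D⁻¹, inv_ne_zero hD0, ?_, hg₁, hg₂, ?_, ?_, ?_⟩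
  · rw [hgD, inv_pow]
    field_simp
  · -- horizontal divisibility
    refine horDiv_of_divisible hN hp0 hgK (u' := g) (b := 1) (by simp) ?_
    intro V hV hR hπV
    obtain ⟨G, u₀, hu₀, hu₀', huG⟩ := hdiv V hV hR hπV
    refine ⟨G * D, u₀, hu₀, hu₀', ?_⟩
    rw [hgD, huG, mul_pow]
    ring
  · exact split_ring_of_splitAt V₁ hp0 hu hs₁ hD0 hgD hg₁
  · exact split_ring_of_splitAt V₂ hp0 hu hs₂ hD0 hgD hg₂

end Node

end Fermat.Agent.Ribet.H399
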