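import Mathlib
import Fermat.Prelude.Def_AlgebraicCurve_DivisorClassGroup
import Fermat.Agent.A2.Alg.Spec

/-!
# RIBET row 38, WALL-p: chart purity ⇒ slopes `0`  — abstract core
  (author helper280, `origin/helper280:Ribet/H280/PureFinCore.lean`; copy in the namespace
  `Fermat.Agent.Ribet.H399.Dict` so that the CUSP chain of helper399 is self-contained)

`B ⊆ V ⊆ F` a chart inside a valuation ring (`V = V∞` or `V₀`), `ρ : V → κ` the reduction
(`ker ρ = 𝔪_V`), `κ / k` a function field, `Q` a place of `κ` with residue field `k`,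
`y ∈ B` a coordinate with `B` integral over `R[y]` and `ρ y ∈ O_Q`.

* `chartRed`, `chartRed_mem` : `ρ` restricted to the chart has values in `O_Q`;
* `pointOfPlace`, `pointOfPlace_isPrime`, `pointOfPlace_isMaximal` : `n := {b ∈ B | ρ b ∈ 𝔪_Q}` is
  a maximal ideal of `B` containing `B ∩ ker ρ`, and `ρ` maps `B ∖ n` into `O_Qˣ`
  (`inv_mem_of_not_mem_pointOfPlace`);
* `dvd_ord_of_locUnit` : if `u · d ^ m ∈ (B_n)ˣ` with `u ∈ V`, `d ∈ Vˣ`, then `m ∣ ord_Q (ρ u)`.
-/

set_option autoImplicit false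

namespace Fermat.Agent.Ribet.H399.Dict

open AlgebraicCurve

section Core

variable {R F : Type*} [CommRing R] [Field F] [Algebra R F]
variable {k κ : Type*} [Field k] [Field κ] [Algebra k κ]

/-- A unit of the valuation ring of a place has order `0`. -/
theorem ord_eq_zero_of_mem_of_inv_mem (Q : Place k κ) {z : κ}
    (hz : z ∈ Q.toValuationSubring) (hz' : z⁻¹ ∈ Q.toValuationSubring) (hz0 : z ≠ 0) :
    Q.ord z = 0 := by
  have h1 : (⟨z, hz⟩ : Q.toValuationSubring) * ⟨z⁻¹, hz'⟩ = 1 :=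
    Subtype.ext (mul_inv_cancel₀ hz0)
  have h2 : (⟨z⁻¹, hz'⟩ : Q.toValuationSubring) * ⟨z, hz⟩ = 1 :=
    Subtype.ext (inv_mul_cancel₀ hz0)
  exact Q.ord_coe_unit ⟨⟨z, hz⟩, ⟨z⁻¹, hz'⟩, h1, h2⟩

/-- An element of `O_Q` which is not in `𝔪_Q` has its inverse in `O_Q`. -/
theorem inv_mem_of_not_mem_maximalIdeal (Q : Place k κ) (z : Q.toValuationSubring)
    (hz : z ∉ IsLocalRing.maximalIdeal Q.toValuationSubring) :
    ((z : κ))⁻¹ ∈ Q.toValuationSubring := by
  have hu : IsUnit z := by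
    by_contra h
    exact hz ((IsLocalRing.mem_maximalIdeal z).mpr h)
  obtain ⟨u, rfl⟩ := hu
  have h1 : ((u : Q.toValuationSubring) : κ) * ((u⁻¹ : (Q.toValuationSubring)ˣ) :
      Q.toValuationSubring) = 1 :=
    congrArg Subtype.val u.mul_inv
  have h2 : (((u : Q.toValuationSubring) : κ))⁻¹ =
      (((u⁻¹ : (Q.toValuationSubring)ˣ) : Q.toValuationSubring) : κ) :=
    inv_eq_of_mul_eq_one_right h1
  rw [h2]
  exact Subtype.mem _

variable (B : Subalgebra R F) (V : ValuationSubring F) (hBV : ∀ b : B, (b : F) ∈ V)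
  (ρ : V →+* κ)

/-- The restriction of the reduction to the chart. -/
def chartRed : B →+* κ :=
  ρ.comp ((B.val : B →+* F).codRestrict V.toSubring (fun b => hBV b))

theorem chartRed_apply (b : B) : chartRed B V hBV ρ b = ρ ⟨(b : F), hBV b⟩ := rfl

section Place

variable {hBV}
variable (Q : Place k κ)

/-- The chart maps into `O_Q` as soon as the constants and the coordinate do. -/
theorem chartRed_mem (y : B) (hint : ∀ b : B, IsIntegral (Algebra.adjoin R ({y} : Set B)) b)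
    (hR : ∀ r : R, chartRed B V hBV ρ (algebraMap R B r) ∈ Q.toValuationSubring)
    (hy : chartRed B V hBV ρ y ∈ Q.toValuationSubring) (b : B) :
    chartRed B V hBV ρ b ∈ Q.toValuationSubring := by
  set φ := chartRed B V hBV ρ with hφ
  -- the subring `adjoin R {y}` maps into `O_Q`
  have hS : ∀ s : Algebra.adjoin R ({y} : Set B), φ (s : B) ∈ Q.toValuationSubring := by
    rintro ⟨s, hs⟩
    induction hs using Algebra.adjoin_induction with
    | mem x hx =>
      rw [Set.mem_singleton_iff] at hx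
      subst hx
      exact hy
    | algebraMap r => exact hR r
    | add x z _ _ hx hz =>
      show φ (x + z) ∈ _
      rw [map_add]
      exact add_mem hx hz
    | mul x z _ _ hx hz =>
      show φ (x * z) ∈ _
      rw [map_mul]
      exact mul_mem hx hz
  let ψ : Algebra.adjoin R ({y} : Set B) →+* Q.toValuationSubring :=
    (φ.comp (Algebra.adjoin R ({y} : Set B)).val.toRingHom).codRestrict
      Q.toValuationSubring.toSubring (fun s => hS s)
  obtain ⟨P, hP, hPb⟩ := hint b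
  have hint' : IsIntegral Q.toValuationSubring (φ b) := by
    refine ⟨P.map ψ, hP.map ψ, ?_⟩
    rw [Polynomial.eval₂_map]
    have h1 : (algebraMap Q.toValuationSubring κ).comp ψ =
        φ.comp (algebraMap (Algebra.adjoin R ({y} : Set B)) B) := by
      ext s
      rfl
    rw [h1, ← Polynomial.hom_eval₂, hPb, map_zero]
  obtain ⟨z, hz⟩ := IsIntegrallyClosed.isIntegral_iff.mp hint'
  rw [← hz]
  exact z.2

/-- The reduction of the chart, with values in `O_Q`. -/
def chartRedQ (hmem : ∀ b : B, chartRed B V hBV ρ b ∈ Q.toValuationSubring) :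
    B →+* Q.toValuationSubring :=
  (chartRed B V hBV ρ).codRestrict Q.toValuationSubring.toSubring hmem

/-- **The closed point of the chart attached to the place `Q`**: `n = {b | ρ b ∈ 𝔪_Q}`. -/
def pointOfPlace (hmem : ∀ b : B, chartRed B V hBV ρ b ∈ Q.toValuationSubring) : Ideal B :=
  Ideal.comap (chartRedQ B V ρ Q hmem) (IsLocalRing.maximalIdeal Q.toValuationSubring)

theorem mem_pointOfPlace (hmem : ∀ b : B, chartRed B V hBV ρ b ∈ Q.toValuationSubring) (b : B) :
    b ∈ pointOfPlace B V ρ Q hmem ↔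
      (⟨chartRed B V hBV ρ b, hmem b⟩ : Q.toValuationSubring) ∈
        IsLocalRing.maximalIdeal Q.toValuationSubring := Iff.rfl

instance pointOfPlace_isPrime (hmem : ∀ b : B, chartRed B V hBV ρ b ∈ Q.toValuationSubring) :
    (pointOfPlace B V ρ Q hmem).IsPrime :=
  Ideal.comap_isPrime _ _

/-- elements of the kernel of the reduction lie in the point -/
theorem mem_pointOfPlace_of_eq_zero
    (hmem : ∀ b : B, chartRed B V hBV ρ b ∈ Q.toValuationSubring) {b : B}
    (hb : chartRed B V hBV ρ b = 0) : b ∈ pointOfPlace B V ρ Q hmem := by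
  rw [mem_pointOfPlace]
  have : (⟨chartRed B V hBV ρ b, hmem b⟩ : Q.toValuationSubring) = 0 := Subtype.ext hb
  rw [this]
  exact Ideal.zero_mem _

/-- `ρ` maps the complement of the point into `O_Qˣ`. -/
theorem inv_mem_of_not_mem_pointOfPlace
    (hmem : ∀ b : B, chartRed B V hBV ρ b ∈ Q.toValuationSubring) {b : B}
    (hb : b ∉ pointOfPlace B V ρ Q hmem) :
    (chartRed B V hBV ρ b)⁻¹ ∈ Q.toValuationSubring :=
  inv_mem_of_not_mem_maximalIdeal Q ⟨chartRed B V hBV ρ b, hmem b⟩ hb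

theorem ne_zero_of_not_mem_pointOfPlace
    (hmem : ∀ b : B, chartRed B V hBV ρ b ∈ Q.toValuationSubring) {b : B}
    (hb : b ∉ pointOfPlace B V ρ Q hmem) : chartRed B V hBV ρ b ≠ 0 :=
  fun h => hb (mem_pointOfPlace_of_eq_zero B V ρ Q hmem h)

/-- **The point of a place is a closed point** when the residue field of `Q` is `k` and the
constants of `R` reduce onto `k`. -/
theorem pointOfPlace_isMaximal
    (hmem : ∀ b : B, chartRed B V hBV ρ b ∈ Q.toValuationSubring)
    (hQ : Function.Surjective (algebraMap k Q.ResidueField))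
    (hsurj : ∀ c : k, ∃ r : R, chartRed B V hBV ρ (algebraMap R B r) = algebraMap k κ c) :
    (pointOfPlace B V ρ Q hmem).IsMaximal := by
  set n := pointOfPlace B V ρ Q hmem with hn
  set φ := chartRedQ B V ρ Q hmem with hφ
  rw [Ideal.isMaximal_iff]
  refine ⟨fun h1 => (pointOfPlace_isPrime B V ρ Q hmem).ne_top
    ((Ideal.eq_top_iff_one _).mpr h1), ?_⟩
  intro J b hnJ hb hbJ
  obtain ⟨c₀, hc₀⟩ := hQ (IsLocalRing.residue Q.toValuationSubring (φ b))
  have hc₀0 : c₀ ≠ 0 := by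
    rintro rfl
    rw [map_zero] at hc₀
    exact hb ((IsLocalRing.residue_eq_zero_iff _).mp hc₀.symm)
  obtain ⟨r, hr⟩ := hsurj c₀⁻¹
  have hφr : φ (algebraMap R B r) = algebraMap k Q.toValuationSubring c₀⁻¹ :=
    Subtype.ext hr
  have hres : IsLocalRing.residue Q.toValuationSubring (φ (b * algebraMap R B r) - 1) = 0 := by
    rw [map_sub, map_mul, map_mul, map_one, hφr, ← hc₀]
    have h2 : IsLocalRing.residue Q.toValuationSubring
        (algebraMap k Q.toValuationSubring c₀⁻¹) = algebraMap k Q.ResidueField c₀⁻¹ := rfl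
    rw [h2, ← map_mul, mul_inv_cancel₀ hc₀0, map_one, sub_self]
  have hmemn : b * algebraMap R B r - 1 ∈ n := by
    show φ (b * algebraMap R B r - 1) ∈ IsLocalRing.maximalIdeal _
    rw [map_sub, map_one]
    exact (IsLocalRing.residue_eq_zero_iff _).mp hres
  have h3 : b * algebraMap R B r ∈ J := J.mul_mem_right _ hbJ
  have h4 : b * algebraMap R B r - (b * algebraMap R B r - 1) ∈ J :=
    J.sub_mem h3 (hnJ hmemn)
  simpa using h4

/-- **Purity at the point of `Q` ⇒ `m ∣ ord_Q`.**  If `u · d ^ m` is a unit of `B_n` at the point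
`n` of `Q`, with `u, d ∈ Vˣ`, then `m ∣ ord_Q (ρ u)`. -/
theorem dvd_ord_of_locUnit
    (hmem : ∀ b : B, chartRed B V hBV ρ b ∈ Q.toValuationSubring)
    (m : ℕ) {u d : F} (hu : u ∈ V) (hd : d ∈ V) (hd' : d⁻¹ ∈ V) (hd0 : d ≠ 0)
    (hpure : Fermat.Agent.A2.Alg.LocUnit B (pointOfPlace B V ρ Q hmem) (u * d ^ m)) :
    (m : ℤ) ∣ Q.ord (ρ ⟨u, hu⟩) := by
  obtain ⟨a, b, ha, hb, hab⟩ := hpure
  -- apply `ρ` to `u * d ^ m * b = a`
  have h1 : ρ ⟨u, hu⟩ * ρ ⟨d, hd⟩ ^ m * chartRed B V hBV ρ b = chartRed B V hBV ρ a := by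
    rw [chartRed_apply, chartRed_apply, ← map_pow, ← map_mul, ← map_mul]
    congr 1
    exact Subtype.ext hab
  have hρd : ρ ⟨d, hd⟩ ≠ 0 := by
    intro h0
    have h2 : ρ (⟨d, hd⟩ * ⟨d⁻¹, hd'⟩) = 1 := by
      have : (⟨d, hd⟩ * ⟨d⁻¹, hd'⟩ : V) = 1 := Subtype.ext (mul_inv_cancel₀ hd0)
      rw [this, map_one]
    rw [map_mul, h0, zero_mul] at h2
    exact zero_ne_one h2
  have hρa := ne_zero_of_not_mem_pointOfPlace B V ρ Q hmem ha
  have hρb := ne_zero_of_not_mem_pointOfPlace B V ρ Q hmem hb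
  have hρu : ρ ⟨u, hu⟩ ≠ 0 := by
    intro h0
    rw [h0, zero_mul, zero_mul] at h1
    exact hρa h1.symm
  have ha0 : Q.ord (chartRed B V hBV ρ a) = 0 :=
    ord_eq_zero_of_mem_of_inv_mem Q (hmem a) (inv_mem_of_not_mem_pointOfPlace B V ρ Q hmem ha) hρa
  have hb0 : Q.ord (chartRed B V hBV ρ b) = 0 :=
    ord_eq_zero_of_mem_of_inv_mem Q (hmem b) (inv_mem_of_not_mem_pointOfPlace B V ρ Q hmem hb) hρb
  have h3 := congrArg Q.ord h1
  rw [Q.ord_mul (mul_ne_zero hρu (pow_ne_zero _ hρd)) hρb, Q.ord_mul hρu (pow_ne_zero _ hρd),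
    ha0, hb0, add_zero] at h3
  have h4 : Q.ord (ρ ⟨d, hd⟩ ^ m) = m * Q.ord (ρ ⟨d, hd⟩) := by
    have := Q.ord_zpow (ρ ⟨d, hd⟩) (m : ℤ)
    rwa [zpow_natCast] at this
  rw [h4] at h3
  exact ⟨-Q.ord (ρ ⟨d, hd⟩), by linarith⟩

end Place

end Core

end Fermat.Agent.Ribet.H399.Dict
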