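import Mathlib

/-!
(author helper153, `origin/helper153:S36/H153/Infinity.lean`; copy in the namespace
`Fermat.Agent.Ribet.H399.NoNode` so that the CUSP chain of helper399 is self-contained)

# S36 engine, cell INCIDENCE at infinity (helper153) — abstract part, Mathlib only

Problem: in the chart at infinity of the level-`q M` model (`x⁻¹ = u · u_q`, `u = 1/j`,
`u_q = 1/j_q`) the purity/regularity cells need to know that NO closed point at infinity
(`u u_q ∈ n`) lies on two components ("cusps are not nodes"); otherwise there is no local generator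
`t` of a vertical prime at such a point (`t = w` needs exactly one component through `n`).

Solution: the two functions

  `z = u ^ q / u_q = j_q / j ^ q`,   `y = u_q ^ q / u = j / j_q ^ q`

lie in the chart at infinity (valuative criterion + SHAPE of the modular polynomial:
`Φ = Y^(q+1) + Σ_{k ≤ q} a_k(X) Y^k`, `deg a_k ≤ q + 1`, `deg a_q ≤ q`), and
`z ≡ 1` on `C∞` (`j_q ≡ j^q`), `y ≡ 1` on `C₀` (`j ≡ j_q^q`), `y z = (u u_q)^(q-1)`.
Hence at a common point `n` of `C∞` and `C₀`:  `(u u_q)^(q-1) ≡ 1 mod n`, so `u u_q ∉ n`.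

* `aeval_inv_mul_pow_mem`   : `a(1/u) · u^d ∈ V` for `deg a ≤ d`, `u ∈ V`;
* `pow_div_mem_of_shape`    : the valuative core: `u^(n-1) / u_q ∈ V` for every valuation subring
                              `V ∋ u, u_q`, from `Φ(1/u, 1/u_q) = 0` and the shape of `Φ`;
* `not_mem_of_yz`           : abstract "no node at infinity" (level `q`);
* `finite_of_two_components`: abstract "points at infinity of level `q²` lie on exactly one
                              component", from the level-`q` statement and the comap pattern only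
                              (no integrality, no going-down).
-/

set_option autoImplicit false

namespace Fermat.Agent.Ribet.H399.NoNode

open Polynomial

section Valuative

variable {K : Type*} [Field K]

/-- `a(1/u) · u^d ∈ V` if `u ∈ V` and `deg a ≤ d` (integer coefficients). -/
theorem aeval_inv_mul_pow_mem (V : ValuationSubring K) {u : K} (hu : u ∈ V) (hu0 : u ≠ 0)
    (d : ℕ) (a : Polynomial ℤ) (ha : a.natDegree ≤ d) :
    Polynomial.aeval u⁻¹ a * u ^ d ∈ V := by
  refine Polynomial.induction_with_natDegree_le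
    (fun f => Polynomial.aeval u⁻¹ f * u ^ d ∈ V) d ?_ ?_ ?_ a ha
  · simp [V.zero_mem]
  · intro n r _ hnd
    have h1 : Polynomial.aeval u⁻¹ (C r * X ^ n) * u ^ d = (r : K) * u ^ (d - n) := by
      rw [map_mul, map_pow, Polynomial.aeval_C, Polynomial.aeval_X]
      have h2 : u ^ d = u ^ (d - n) * u ^ n := by rw [← pow_add, Nat.sub_add_cancel hnd]
      rw [h2, inv_pow]
      simp only [eq_intCast]
      field_simp
    rw [h1]
    exact V.mul_mem _ _ (by simpa using V.toSubring.intCast_mem r) (V.pow_mem hu _)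
  · intro f g _ _ hf hg
    rw [map_add, add_mul]
    exact V.add_mem _ _ hf hg

/-- **Valuative core.**  `Φ ∈ ℤ[X][Y]` monic of degree `n ≥ 2` in `Y`, all coefficients of degree
`≤ n` in `X`, the coefficient of `Y^(n-1)` of degree `≤ n - 1` in `X`, and `Φ(1/u, 1/u_q) = 0`.
Then `u ^ (n-1) / u_q` lies in every valuation subring containing `u` and `u_q`. -/
theorem pow_div_mem_of_shape (V : ValuationSubring K) {u uq : K} (hu : u ∈ V) (huq : uq ∈ V)
    (hu0 : u ≠ 0) (huq0 : uq ≠ 0) (Φ : Polynomial (Polynomial ℤ)) {n : ℕ} (hn : 2 ≤ n)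
    (hΦ : Φ.Monic) (hdeg : Φ.natDegree = n) (hin : ∀ k, (Φ.coeff k).natDegree ≤ n)
    (htop : (Φ.coeff (n - 1)).natDegree ≤ n - 1)
    (h : Φ.eval₂ (Polynomial.aeval (R := ℤ) u⁻¹).toRingHom uq⁻¹ = 0) :
    u ^ (n - 1) / uq ∈ V := by
  by_contra hz
  set v := V.valuation with hv
  -- `ζ = u_q / u^(n-1)` is a non-unit
  have hζ : v (uq / u ^ (n - 1)) < 1 := by
    have h1 : ¬ v (u ^ (n - 1) / uq) ≤ 1 := fun hle => hz ((V.valuation_le_one_iff _).mp hle)
    have h2 : 1 < v (u ^ (n - 1) / uq) := not_le.mp h1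
    have h3 : uq / u ^ (n - 1) = (u ^ (n - 1) / uq)⁻¹ := by rw [inv_div]
    rw [h3, map_inv₀]
    exact (inv_lt_one₀ (lt_trans zero_lt_one h2)).mpr h2
  have hvu : v u ≤ 1 := (V.valuation_le_one_iff _).mpr hu
  have hvuq : v uq ≤ 1 := (V.valuation_le_one_iff _).mpr huq
  -- expand the relation
  rw [Polynomial.eval₂_eq_sum_range, hdeg, Finset.sum_range_succ] at h
  have hlead : (Polynomial.aeval (R := ℤ) u⁻¹).toRingHom (Φ.coeff n) = 1 := by
    have : Φ.coeff n = 1 := by rw [← hdeg]; exact hΦ.coeff_natDegree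
    rw [this, map_one]
  rw [hlead, one_mul] at h
  -- multiply by `u_q ^ n`
  have hmain : (∑ k ∈ Finset.range n,
      Polynomial.aeval u⁻¹ (Φ.coeff k) * uq ^ (n - k)) = -1 := by
    have h1 : (∑ k ∈ Finset.range n,
        (Polynomial.aeval (R := ℤ) u⁻¹).toRingHom (Φ.coeff k) * uq⁻¹ ^ k) * uq ^ n
        = ∑ k ∈ Finset.range n, Polynomial.aeval u⁻¹ (Φ.coeff k) * uq ^ (n - k) := by
      rw [Finset.sum_mul]
      refine Finset.sum_congr rfl fun k hk => ?_
      have hk' : k ≤ n := (Finset.mem_range.mp hk).le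
      have h2 : uq ^ n = uq ^ (n - k) * uq ^ k := by rw [← pow_add, Nat.sub_add_cancel hk']
      rw [h2, inv_pow]
      show Polynomial.aeval u⁻¹ (Φ.coeff k) * (uq ^ k)⁻¹ * (uq ^ (n - k) * uq ^ k) = _
      have h3 : uq ^ k ≠ 0 := pow_ne_zero _ huq0
      field_simp
    have h4 : (∑ k ∈ Finset.range n,
        (Polynomial.aeval (R := ℤ) u⁻¹).toRingHom (Φ.coeff k) * uq⁻¹ ^ k) = - uq⁻¹ ^ n :=
      eq_neg_of_add_eq_zero_left h
    rw [← h1, h4, neg_mul, inv_pow, inv_mul_cancel₀ (pow_ne_zero _ huq0)]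
  -- every term is a non-unit
  have hζV : uq / u ^ (n - 1) ∈ V := (V.valuation_le_one_iff _).mp hζ.le
  have hlt : ∀ T : K, T ∈ V → v (uq / u ^ (n - 1) * T) < 1 := by
    intro T hT
    have hT' : v T ≤ 1 := (V.valuation_le_one_iff _).mpr hT
    rw [map_mul]
    calc v (uq / u ^ (n - 1)) * v T ≤ v (uq / u ^ (n - 1)) * 1 := mul_le_mul_right hT' _
      _ < 1 := by rw [mul_one]; exact hζ
  have hterm : ∀ k ∈ Finset.range n,
      v (Polynomial.aeval u⁻¹ (Φ.coeff k) * uq ^ (n - k)) < 1 := by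
    intro k hk
    have hkn : k < n := Finset.mem_range.mp hk
    have h3 : u ^ (n - 1) ≠ 0 := pow_ne_zero _ hu0
    by_cases hk1 : k = n - 1
    · -- degree `≤ n - 1`
      have hb := aeval_inv_mul_pow_mem V hu hu0 (n - 1) (Φ.coeff k) (by rw [hk1]; exact htop)
      have h1 : Polynomial.aeval u⁻¹ (Φ.coeff k) * uq ^ (n - k)
          = (uq / u ^ (n - 1)) * (Polynomial.aeval u⁻¹ (Φ.coeff k) * u ^ (n - 1)) := by
        have h2 : n - k = 1 := by omega
        rw [h2, pow_one]
        field_simp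
      rw [h1]
      exact hlt _ hb
    · -- degree `≤ n`, `n - k ≥ 2`
      have hb := aeval_inv_mul_pow_mem V hu hu0 n (Φ.coeff k) (hin k)
      have hk2 : 2 ≤ n - k := by omega
      have hW : u ^ (n - 2) * uq ^ (n - k - 2) ∈ V := V.mul_mem _ _ (V.pow_mem hu _) (V.pow_mem huq _)
      have h1 : Polynomial.aeval u⁻¹ (Φ.coeff k) * uq ^ (n - k)
          = (uq / u ^ (n - 1)) * ((Polynomial.aeval u⁻¹ (Φ.coeff k) * u ^ n) *
            ((uq / u ^ (n - 1)) * (u ^ (n - 2) * uq ^ (n - k - 2)))) := by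
        have h4 : uq ^ (n - k) = uq ^ (n - k - 2) * uq ^ 2 := by
          rw [← pow_add]; congr 1; omega
        have h5 : u ^ n * u ^ (n - 2) = u ^ (n - 1) * u ^ (n - 1) := by
          rw [← pow_add, ← pow_add]; congr 1; omega
        have h6 : (uq / u ^ (n - 1)) * ((Polynomial.aeval u⁻¹ (Φ.coeff k) * u ^ n) *
            ((uq / u ^ (n - 1)) * (u ^ (n - 2) * uq ^ (n - k - 2))))
            = Polynomial.aeval u⁻¹ (Φ.coeff k) * (uq ^ (n - k - 2) * uq ^ 2) *
              ((u ^ n * u ^ (n - 2)) / (u ^ (n - 1) * u ^ (n - 1))) := by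
          field_simp
        rw [h6, h5, div_self (mul_ne_zero h3 h3), mul_one, h4]
      rw [h1]
      exact hlt _ (V.mul_mem _ _ hb (V.mul_mem _ _ hζV hW))
  have hsum := Valuation.map_sum_lt v (one_ne_zero) hterm
  rw [hmain, Valuation.map_neg, map_one] at hsum
  exact lt_irrefl _ hsum

end Valuative

section NoNode

variable {B : Type*} [CommRing B]

/-- **No node at infinity (abstract).**  If `z ≡ 1` on `C∞`, `y ≡ 1` on `C₀` and
`y z = v ^ k`, `k ≥ 1`, then `v` does not vanish at any common point of `C∞` and `C₀`. -/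
theorem not_mem_of_yz {pinf pzero n : Ideal B} (hn : n ≠ ⊤) (h1 : pinf ≤ n) (h2 : pzero ≤ n)
    {y z v : B} {k : ℕ} (hk : 0 < k) (hz : z - 1 ∈ pinf) (hy : y - 1 ∈ pzero)
    (hyz : y * z = v ^ k) : v ∉ n := by
  intro hv
  apply hn
  rw [Ideal.eq_top_iff_one]
  have h3 : v ^ k ∈ n := n.pow_mem_of_mem hv k hk
  have h4 : y * z - (y * (z - 1) + (y - 1)) ∈ n :=
    n.sub_mem (hyz ▸ h3) (n.add_mem (n.mul_mem_left _ (h1 hz)) (h2 hy))
  have h5 : y * z - (y * (z - 1) + (y - 1)) = 1 := by ring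
  rwa [h5] at h4

end NoNode

section LevelSq

variable {A B : Type*} [CommRing A] [CommRing B]

/-- **Points at infinity of level `q²` lie on exactly one component (abstract).**
`a b : A → B` the two degeneracy maps, `u, u_q ∈ A` (`1/j`, `1/j_q` at level `q`), so that
`a u, a u_q = b u, b u_q` are `1/j, 1/j_q, 1/j_{q²}` at level `q²`.  Hypotheses:
the comap pattern (inclusions only), the Kronecker congruences `u_q - u^e ∈ P1`,
`u - u_q^e ∈ P2` (`e = q`), and "no node at infinity" at level `q`.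
Conclusion: a prime of `B` on two components does not contain `1/j · 1/j_q · 1/j_{q²}`. -/
theorem finite_of_two_components (a b : A →+* B) {P1 P2 : Ideal A} {pFF pmid pVV : Ideal B}
    (aFF : P1 ≤ pFF.comap a) (aVV : P2 ≤ pVV.comap a) (amid : P1 ≤ pmid.comap a)
    (bFF : P1 ≤ pFF.comap b) (bmid : P2 ≤ pmid.comap b) (bVV : P2 ≤ pVV.comap b)
    {u uq : A} {e : ℕ} (he : 0 < e) (hab : a uq = b u)
    (h1 : uq - u ^ e ∈ P1) (h2 : u - uq ^ e ∈ P2)
    (hnode : ∀ N : Ideal A, N.IsPrime → P1 ≤ N → P2 ≤ N → u * uq ∉ N)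
    (n : Ideal B) [n.IsPrime]
    (h : (pFF ≤ n ∧ pmid ≤ n) ∨ (pFF ≤ n ∧ pVV ≤ n) ∨ (pmid ≤ n ∧ pVV ≤ n)) :
    a u * a uq * b uq ∉ n := by
  have hprime : n.IsPrime := inferInstance
  have hNa : (n.comap a).IsPrime := Ideal.comap_isPrime a n
  have hNb : (n.comap b).IsPrime := Ideal.comap_isPrime b n
  have key : ∀ {x y : B}, x * y ∉ n → x ∉ n ∧ y ∉ n := fun {x y} hxy =>
    ⟨fun hx => hxy (n.mul_mem_right _ hx), fun hy => hxy (n.mul_mem_left _ hy)⟩
  have hmul3 : ∀ {x y z : B}, x ∉ n → y ∉ n → z ∉ n → x * y * z ∉ n := by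
    intro x y z hx hy hz hxyz
    rcases hprime.mem_or_mem hxyz with hxy | hz'
    · rcases hprime.mem_or_mem hxy with hx' | hy'
      · exact hx hx'
      · exact hy hy'
    · exact hz hz'
  -- the node property at the two images
  have nodeA : P1 ≤ n.comap a → P2 ≤ n.comap a → a u ∉ n ∧ a uq ∉ n := fun hP1 hP2 => by
    have ha : u * uq ∉ n.comap a := hnode _ hNa hP1 hP2
    exact key fun hmem => ha (by rw [Ideal.mem_comap, map_mul]; exact hmem)
  have nodeB : P1 ≤ n.comap b → P2 ≤ n.comap b → b u ∉ n ∧ b uq ∉ n := fun hP1 hP2 => by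
    have hb : u * uq ∉ n.comap b := hnode _ hNb hP1 hP2
    exact key fun hmem => hb (by rw [Ideal.mem_comap, map_mul]; exact hmem)
  rcases h with ⟨hFF, hmid⟩ | ⟨hFF, hVV⟩ | ⟨hmid, hVV⟩
  · -- `FF ∩ mid`: the `β`-image is a node; `1/j ∉ n` from `u_q ≡ u^e` on `FF` (via `α`)
    obtain ⟨hbu, hbuq⟩ :=
      nodeB (bFF.trans (Ideal.comap_mono hFF)) (bmid.trans (Ideal.comap_mono hmid))
    have hau : a u ∉ n := by
      intro hmem
      have h3 : a (uq - u ^ e) ∈ n := hFF (aFF h1)
      rw [map_sub, map_pow] at h3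
      have h6 : a u ^ e ∈ n := n.pow_mem_of_mem hmem e he
      have h7 : a uq ∈ n := by
        have := n.add_mem h3 h6
        simpa using this
      exact hbu (hab ▸ h7)
    exact hmul3 hau (hab ▸ hbu) hbuq
  · -- `FF ∩ VV`: both images are nodes
    obtain ⟨hau, hauq⟩ :=
      nodeA (aFF.trans (Ideal.comap_mono hFF)) (aVV.trans (Ideal.comap_mono hVV))
    obtain ⟨-, hbuq⟩ :=
      nodeB (bFF.trans (Ideal.comap_mono hFF)) (bVV.trans (Ideal.comap_mono hVV))
    exact hmul3 hau hauq hbuq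
  · -- `mid ∩ VV`: the `α`-image is a node; `1/j_{q²} ∉ n` from `u ≡ u_q^e` on `VV` (via `β`)
    obtain ⟨hau, hauq⟩ :=
      nodeA (amid.trans (Ideal.comap_mono hmid)) (aVV.trans (Ideal.comap_mono hVV))
    have hbuq : b uq ∉ n := by
      intro hmem
      have h3 : b (u - uq ^ e) ∈ n := hVV (bVV h2)
      rw [map_sub, map_pow] at h3
      have h6 : b uq ^ e ∈ n := n.pow_mem_of_mem hmem e he
      have h7 : b u ∈ n := by
        have := n.add_mem h3 h6
        simpa using this
      exact hauq (hab.symm ▸ h7)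
    exact hmul3 hau hauq hbuq

end LevelSq

end Fermat.Agent.Ribet.H399.NoNode
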