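import Fermat.Agent.A2.Mod.H372.S3Coord
import Fermat.Agent.A2.Mod.H31.DegField
import Fermat.Agent.Ribet.H399.CuspInfinity

/-!
(author helper153, `origin/helper153:S36/H153/CuspNode.lean`; copy in the namespace
`Fermat.Agent.Ribet.H399.NoNode` so that the CUSP chain of helper399 is self-contained)

# S36 engine, cell INCIDENCE at infinity (helper153) — concrete part, A2 / MOD language

Level `N = M q`, `q ∤ M`, chart at infinity `Bi = chartAlg P E (M q) x⁻¹`, `x = j · j_q`,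
components `p₁ = Bi ∩ w V∞`, `p₂ = Bi ∩ w V₀` (`IsCut`).

* `modPoly_natDegree_coeff_le`, `modPoly_natDegree_coeff_top_le` : SHAPE of the modular polynomial
  (`X`-degree `≤ q + 1`, coefficient of `Y^q` of `X`-degree `≤ q`), from the symmetry
  `A2.Mod.H31.exists_swap_eq`;
* `zE_mem_chartAlg`, `yE_mem_chartAlg` : `z = j_q / j^q` and `y = j / j_q^q` lie in `Bi`;
* `zE_sub_one_inW`, `yE_sub_one_inW` : `z ≡ 1 mod w V∞`, `y ≡ 1 mod w V₀`;
* **`no_node_at_infinity`** : no proper ideal of `Bi` containing `p₁` and `p₂` contains `x⁻¹`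
  (cusps are not nodes; equivalently every node of level `M q` lies in the finite chart).
-/

set_option autoImplicit false
set_option synthInstance.maxHeartbeats 400000
set_option maxHeartbeats 1600000
set_option linter.unusedSectionVars false
set_option linter.style.haveILetI false

noncomputable section

namespace Fermat.Agent.Ribet.H399.NoNode

open ModularCurve HahnSeries Polynomial
open Fermat.Agent.A2.Mod
open scoped Polynomial.Bivariate

/-! ## Shape of the modular polynomial -/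

section Shape

variable (q : ℕ) [NeZero q]

theorem exists_swap_modPolyK (hq : q.Prime) (D : S28.ModPolyData q) :
    ∃ c : ℚ, c ≠ 0 ∧ Bivariate.swap (H31.modPolyK ℚ q D) = C (C c) * H31.modPolyK ℚ q D :=
  H31.exists_swap_eq (H31.transcendental_jqModC ℚ) (H31.modPolyK_monic ℚ q D)
    (H31.aevalAeval_modPolyK ℚ q D) (H31.aevalAeval_modPolyK' ℚ q D)
    (by rw [H31.natDegree_modPolyK]
        exact H31.finrank_adjoin_jq ℚ hq (by exact_mod_cast hq.ne_zero))

theorem coeff_coeff_modPolyK (D : S28.ModPolyData q) (k i : ℕ) :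
    ((H31.modPolyK ℚ q D).coeff k).coeff i = (((D.Φ.coeff k).coeff i : ℤ) : ℚ) := by
  rw [H31.modPolyK, Polynomial.coeff_map, Polynomial.coe_mapRingHom, Polynomial.coeff_map]
  rfl

theorem modPoly_coeff_coeff_eq_zero (hq : q.Prime) (D : S28.ModPolyData q) (k i : ℕ)
    (hi : q + 1 < i) : (D.Φ.coeff k).coeff i = 0 := by
  obtain ⟨c, -, hsw⟩ := exists_swap_modPolyK q hq D
  have h := H31.coeff_coeff_eq_zero_of_swap hsw k i (by rw [H31.natDegree_modPolyK]; exact hi)
  rw [coeff_coeff_modPolyK] at h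
  exact_mod_cast h

theorem modPoly_coeff_top (hq : q.Prime) (D : S28.ModPolyData q) :
    (D.Φ.coeff q).coeff (q + 1) = 0 := by
  obtain ⟨c, -, hsw⟩ := exists_swap_modPolyK q hq D
  have h1 : ((Bivariate.swap (H31.modPolyK ℚ q D)).coeff (q + 1)).coeff q
      = ((H31.modPolyK ℚ q D).coeff q).coeff (q + 1) := H31.coeff_coeff_swap _ (q + 1) q
  have h2 : (H31.modPolyK ℚ q D).coeff (q + 1) = 1 := by
    have := (H31.modPolyK_monic ℚ q D).coeff_natDegree
    rwa [H31.natDegree_modPolyK] at this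
  rw [hsw, coeff_C_mul, coeff_C_mul, h2, Polynomial.coeff_one,
    if_neg hq.ne_zero.symm.symm, mul_zero] at h1
  have h3 := h1.symm
  rw [coeff_coeff_modPolyK] at h3
  exact_mod_cast h3

/-- every coefficient of `Φ_q ∈ ℤ[X][Y]` has `X`-degree `≤ q + 1`. -/
theorem modPoly_natDegree_coeff_le (hq : q.Prime) (D : S28.ModPolyData q) (k : ℕ) :
    (D.Φ.coeff k).natDegree ≤ q + 1 :=
  Polynomial.natDegree_le_iff_coeff_eq_zero.mpr fun i hi =>
    modPoly_coeff_coeff_eq_zero q hq D k i hi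

/-- the coefficient of `Y^q` of `Φ_q` has `X`-degree `≤ q`. -/
theorem modPoly_natDegree_coeff_top_le (hq : q.Prime) (D : S28.ModPolyData q) :
    (D.Φ.coeff q).natDegree ≤ q := by
  rw [Polynomial.natDegree_le_iff_coeff_eq_zero]
  intro i hi
  rcases Nat.lt_or_ge (q + 1) i with h | h
  · exact modPoly_coeff_coeff_eq_zero q hq D q i h
  · have : i = q + 1 := by omega
    subst this
    exact modPoly_coeff_top q hq D

end Shape

/-! ## The functions `z`, `y` lie in every valuation ring containing `1 / (j j_q)` -/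

section Val

variable {K : Type*} [Field K]

theorem div_pow_sub_one_mul (a b c : K) (q : ℕ) (hb : b ≠ 0) :
    (a / b ^ q - 1) * c⁻¹ = ((a - b ^ q) * c⁻¹) * (b⁻¹) ^ q := by
  have hbq : b ^ q ≠ 0 := pow_ne_zero _ hb
  rw [inv_pow, sub_mul, sub_mul, sub_mul, div_eq_mul_inv, one_mul]
  have : b ^ q * c⁻¹ * (b ^ q)⁻¹ = c⁻¹ := by
    rw [mul_comm (b ^ q), mul_assoc, mul_inv_cancel₀ hbq, mul_one]
  rw [this]
  ring

theorem inv_mem_of_inv_mul_mem {j jq : K} (hjq0 : jq ≠ 0) (Φ : Polynomial (Polynomial ℤ))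
    (hΦ : Φ.Monic) (h1 : Φ.eval₂ (Polynomial.aeval (R := ℤ) j).toRingHom jq = 0)
    (V : ValuationSubring K) (hx : (j * jq)⁻¹ ∈ V) : j⁻¹ ∈ V := by
  by_contra ha
  have haV : j ∈ V := by
    have := (V.mem_or_inv_mem j⁻¹).resolve_left ha
    rwa [inv_inv] at this
  have hb : jq ∈ V := H873.mem_valuationSubring_of_monic_eval Φ hΦ h1 V haV
  have : j⁻¹ = jq * (j * jq)⁻¹ := by
    have hj0 : j ≠ 0 := fun h0 => ha (by rw [h0, inv_zero]; exact V.zero_mem)
    field_simp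
  exact ha (this ▸ V.mul_mem _ _ hb hx)

theorem div_pow_mem_of_inv_mul_mem {j jq : K} (hj0 : j ≠ 0) (hjq0 : jq ≠ 0)
    (Φ : Polynomial (Polynomial ℤ)) {n : ℕ} (hn : 2 ≤ n) (hΦ : Φ.Monic)
    (hdeg : Φ.natDegree = n) (hin : ∀ k, (Φ.coeff k).natDegree ≤ n)
    (htop : (Φ.coeff (n - 1)).natDegree ≤ n - 1)
    (h1 : Φ.eval₂ (Polynomial.aeval (R := ℤ) j).toRingHom jq = 0)
    (h2 : Φ.eval₂ (Polynomial.aeval (R := ℤ) jq).toRingHom j = 0)
    (V : ValuationSubring K) (hx : (j * jq)⁻¹ ∈ V) :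
    jq / j ^ (n - 1) ∈ V ∧ j / jq ^ (n - 1) ∈ V := by
  have hu : j⁻¹ ∈ V := inv_mem_of_inv_mul_mem hjq0 Φ hΦ h1 V hx
  have huq : jq⁻¹ ∈ V :=
    inv_mem_of_inv_mul_mem hj0 Φ hΦ h2 V (by rwa [mul_comm] at hx)
  constructor
  · have h := pow_div_mem_of_shape V hu huq (inv_ne_zero hj0) (inv_ne_zero hjq0) Φ hn hΦ hdeg
      hin htop (by rw [inv_inv, inv_inv]; exact h1)
    have e : j⁻¹ ^ (n - 1) / jq⁻¹ = jq / j ^ (n - 1) := by
      rw [inv_pow, div_eq_mul_inv, inv_inv, div_eq_mul_inv, mul_comm]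
    rwa [e] at h
  · have h := pow_div_mem_of_shape V huq hu (inv_ne_zero hjq0) (inv_ne_zero hj0) Φ hn hΦ hdeg
      hin htop (by rw [inv_inv, inv_inv]; exact h2)
    have e : jq⁻¹ ^ (n - 1) / j⁻¹ = j / jq ^ (n - 1) := by
      rw [inv_pow, div_eq_mul_inv, inv_inv, div_eq_mul_inv, mul_comm]
    rwa [e] at h

end Val

/-! ## Concrete part -/

section Concrete

variable (P : ValuationSubring Qb) (E : IntermediateField ℚ Qb) (M q : ℕ) [NeZero M] [NeZero q]

/-- `j` at level `M q`. -/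
abbrev j1 : FE E (M * q) := jE E (M * q) 1 (one_dvd _)

/-- `j_q` at level `M q`. -/
abbrev jq1 : FE E (M * q) := jE E (M * q) q (dvd_mul_left q M)

/-- `z = j_q / j ^ q`. -/
def zE : FE E (M * q) := jq1 E M q / j1 E M q ^ q

/-- `y = j / j_q ^ q`. -/
def yE : FE E (M * q) := j1 E M q / jq1 E M q ^ q

theorem xE_eq : xE E M q = j1 E M q * jq1 E M q := rfl

theorem yE_mul_zE : yE E M q * zE E M q = ((xE E M q)⁻¹) ^ (q - 1) := by
  have h1 : j1 E M q ≠ 0 := H873.jE_ne_zero E (M * q) 1 (one_dvd _)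
  have h2 : jq1 E M q ≠ 0 := H873.jE_ne_zero E (M * q) q (dvd_mul_left q M)
  have hq : 1 ≤ q := Nat.one_le_iff_ne_zero.mpr (NeZero.ne q)
  rw [xE_eq, yE, zE, inv_pow, mul_pow]
  have e1 : j1 E M q ^ q = j1 E M q ^ (q - 1) * j1 E M q := by
    rw [← pow_succ, Nat.sub_add_cancel hq]
  have e2 : jq1 E M q ^ q = jq1 E M q ^ (q - 1) * jq1 E M q := by
    rw [← pow_succ, Nat.sub_add_cancel hq]
  rw [e1, e2]
  field_simp

theorem zy_mem_chartAlg (hq : q.Prime) :
    zE E M q ∈ chartAlg P E (M * q) (xE E M q)⁻¹ ∧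
      yE E M q ∈ chartAlg P E (M * q) (xE E M q)⁻¹ := by
  obtain ⟨D⟩ := S28.H807.nonempty_modPolyData q hq
  have hj : D.Φ.eval₂ (Polynomial.aeval (R := ℤ) (jq1 E M q)).toRingHom (j1 E M q) = 0 :=
    H873.eval₂_eq_zero_of_int E (M * q) D.Φ _ _ _ _ (H873.coe_jE_one E (M * q))
      (H873.coe_jE_int E (M * q) q (dvd_mul_left q M)) D.eval_j
  have hjq : D.Φ.eval₂ (Polynomial.aeval (R := ℤ) (j1 E M q)).toRingHom (jq1 E M q) = 0 :=
    H873.eval₂_eq_zero_of_int E (M * q) D.Φ _ _ _ _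
      (H873.coe_jE_int E (M * q) q (dvd_mul_left q M)) (H873.coe_jE_one E (M * q)) D.eval_jp
  have h1 : j1 E M q ≠ 0 := H873.jE_ne_zero E (M * q) 1 (one_dvd _)
  have h2 : jq1 E M q ≠ 0 := H873.jE_ne_zero E (M * q) q (dvd_mul_left q M)
  have key : ∀ V : ValuationSubring (FE E (M * q)), (xE E M q)⁻¹ ∈ V →
      zE E M q ∈ V ∧ yE E M q ∈ V := fun V hx =>
    div_pow_mem_of_inv_mul_mem (n := q + 1) h1 h2 D.Φ (by have := hq.two_le; omega) D.monic
      D.natDegree_eq (modPoly_natDegree_coeff_le q hq D)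
      (modPoly_natDegree_coeff_top_le q hq D) hjq hj V hx
  constructor
  · rw [← H372.mem_chart_iff]
    exact H873.isIntegralElem_of_isIntegral_closure _
      (H873.isIntegral_closure_of_forall_valuationSubring fun V hx => (key V hx).1)
  · rw [← H372.mem_chart_iff]
    exact H873.isIntegralElem_of_isIntegral_closure _
      (H873.isIntegral_closure_of_forall_valuationSubring fun V hx => (key V hx).2)

variable {P E M q}
variable (w : RE P E)

/-- `z ≡ 1 mod w V∞`. -/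
theorem zE_sub_one_inW (hS : Setting P E M q w) {V : ValuationSubring (FE E (M * q))}
    (hV : IsVinf P E (M * q) V) : InW P E (M * q) V w (zE E M q - 1) := by
  have hN := H372.level_ne_zero w hS
  have hk := H372.inW_jE_sub_pow w hS hV 1 (one_dvd M)
  have hcongr : jE E (M * q) (1 * q) (mul_dvd_mul_right (one_dvd M) q) = jq1 E M q :=
    H372.jE_congr (one_mul q) _ _
  rw [hcongr] at hk
  have hinv : (j1 E M q)⁻¹ ∈ V := H372.jE_inv_mem w hS hN hV 1 (one_dvd _)
  have h1 : j1 E M q ≠ 0 := H873.jE_ne_zero E (M * q) 1 (one_dvd _)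
  have e : (zE E M q - 1) * (cE P E (M * q) w)⁻¹
      = ((jq1 E M q - j1 E M q ^ q) * (cE P E (M * q) w)⁻¹) * ((j1 E M q)⁻¹) ^ q := by
    rw [zE]
    exact div_pow_sub_one_mul _ _ _ q h1
  show (zE E M q - 1) * (cE P E (M * q) w)⁻¹ ∈ V
  rw [e]
  exact V.mul_mem _ _ hk (V.pow_mem hinv q)

/-- `y ≡ 1 mod w V₀`, `V₀ = V∞ ∘ W`. -/
theorem yE_sub_one_inW (hS : Setting P E M q w) {V : ValuationSubring (FE E (M * q))}
    (hV : IsVinf P E (M * q) V) {W : FE E (M * q) ≃ₐ[E] FE E (M * q)}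
    (hW : IsFricke E (M * q) W) :
    InW P E (M * q) (V.comap (W : FE E (M * q) →+* FE E (M * q))) w (yE E M q - 1) := by
  rw [H372.inW_comap_iff]
  have hN := H372.level_ne_zero w hS
  have hk := H372.inW_jE_sub_pow w hS hV M (dvd_refl M)
  have hinv : (jE E (M * q) M (dvd_mul_right M q))⁻¹ ∈ V :=
    H372.jE_inv_mem w hS hN hV M (dvd_mul_right M q)
  have h0 : jE E (M * q) M (dvd_mul_right M q) ≠ 0 := H873.jE_ne_zero E (M * q) M _
  have hWy : W (yE E M q - 1) = jE E (M * q) (M * q) (dvd_refl _) /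
      (jE E (M * q) M (dvd_mul_right M q)) ^ q - 1 := by
    rw [yE, map_sub, map_one, map_div₀, map_pow, H372.fricke_jE_one hW, H372.fricke_jE_q hW]
  have e : (W (yE E M q - 1)) * (cE P E (M * q) w)⁻¹
      = ((jE E (M * q) (M * q) (dvd_refl _) - (jE E (M * q) M (dvd_mul_right M q)) ^ q) *
          (cE P E (M * q) w)⁻¹) * ((jE E (M * q) M (dvd_mul_right M q))⁻¹) ^ q := by
    rw [hWy]
    exact div_pow_sub_one_mul _ _ _ q h0
  show (W (yE E M q - 1)) * (cE P E (M * q) w)⁻¹ ∈ V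
  rw [e]
  exact V.mul_mem _ _ hk (V.pow_mem hinv q)

/-- **Cusps are not nodes** (level `M q`, chart at infinity): a proper ideal of the chart at
infinity containing both components does not contain `x⁻¹ = (j j_q)⁻¹`. -/
theorem no_node_at_infinity (hS : Setting P E M q w) (V : ValuationSubring (FE E (M * q)))
    (W : FE E (M * q) ≃ₐ[E] FE E (M * q)) (hV : IsVinf P E (M * q) V)
    (hW : IsFricke E (M * q) W)
    (p₁ p₂ : Ideal (chartAlg P E (M * q) (xE E M q)⁻¹))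
    (h₁ : IsCut P E (M * q) w V (chartAlg P E (M * q) (xE E M q)⁻¹) p₁)
    (h₂ : IsCut P E (M * q) w (V.comap (W : FE E (M * q) →+* FE E (M * q)))
      (chartAlg P E (M * q) (xE E M q)⁻¹) p₂)
    (n : Ideal (chartAlg P E (M * q) (xE E M q)⁻¹)) (hn : n ≠ ⊤) (h1 : p₁ ≤ n) (h2 : p₂ ≤ n)
    (v : chartAlg P E (M * q) (xE E M q)⁻¹) (hv : (v : FE E (M * q)) = (xE E M q)⁻¹) :
    v ∉ n := by
  obtain ⟨hz, hy⟩ := zy_mem_chartAlg P E M q hS.q_prime
  set zB : chartAlg P E (M * q) (xE E M q)⁻¹ := ⟨zE E M q, hz⟩ with hzB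
  set yB : chartAlg P E (M * q) (xE E M q)⁻¹ := ⟨yE E M q, hy⟩ with hyB
  have hq1 : 0 < q - 1 := by have := hS.q_prime.two_le; omega
  refine not_mem_of_yz (pinf := p₁) (pzero := p₂) (y := yB) (z := zB) (k := q - 1) hn h1 h2 hq1
    ?_ ?_ ?_
  · rw [h₁]
    exact zE_sub_one_inW w hS hV
  · rw [h₂]
    exact yE_sub_one_inW w hS hV hW
  · apply Subtype.ext
    show yE E M q * zE E M q = (v : FE E (M * q)) ^ (q - 1)
    rw [hv, yE_mul_zE]

end Concrete

end Fermat.Agent.Ribet.H399.NoNode
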