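import Mathlib

/-!
# Row 38, W-EIS leaf CUSP (helper399): two Mathlib-only lemmas on charts

* `isMaximal_of_coord_mem` : `R` a local ring, `B` an `R`-algebra integral over `R[y]`; a prime
  ideal `n` of `B` containing `y` and the image of the maximal ideal of `R` is maximal
  (no hypothesis on residue fields).
* `isIntegral_adjoin_sub` : integrality over `R[y] ⊆ F` of an element of a subalgebra `B ⊆ F`
  containing `y` is integrality over `R[y] ⊆ B`.
-/

set_option autoImplicit false

namespace Fermat.Agent.Ribet.H399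

open Polynomial

section Maximal

variable {R B : Type*} [CommRing R] [IsLocalRing R] [CommRing B] [Algebra R B]

/-- every element of `R[y]` is congruent to a constant modulo `y`. -/
theorem exists_const_sub_mem_span (y : B) (s : B) (hs : s ∈ Algebra.adjoin R ({y} : Set B)) :
    ∃ r : R, s - algebraMap R B r ∈ Ideal.span ({y} : Set B) := by
  induction hs using Algebra.adjoin_induction with
  | mem x hx =>
    rw [Set.mem_singleton_iff] at hx
    subst hx
    exact ⟨0, by rw [map_zero, sub_zero]; exact Ideal.mem_span_singleton_self _⟩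
  | algebraMap r => exact ⟨r, by rw [sub_self]; exact Ideal.zero_mem _⟩
  | add a b _ _ ha hb =>
    obtain ⟨r₁, h₁⟩ := ha
    obtain ⟨r₂, h₂⟩ := hb
    refine ⟨r₁ + r₂, ?_⟩
    have : a + b - algebraMap R B (r₁ + r₂) =
        (a - algebraMap R B r₁) + (b - algebraMap R B r₂) := by
      rw [map_add]; ring
    rw [this]
    exact Ideal.add_mem _ h₁ h₂
  | mul a b _ _ ha hb =>
    obtain ⟨r₁, h₁⟩ := ha
    obtain ⟨r₂, h₂⟩ := hb
    refine ⟨r₁ * r₂, ?_⟩
    have : a * b - algebraMap R B (r₁ * r₂) =
        (a - algebraMap R B r₁) * b + algebraMap R B r₁ * (b - algebraMap R B r₂) := by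
      rw [map_mul]; ring
    rw [this]
    exact Ideal.add_mem _ (Ideal.mul_mem_right _ _ h₁) (Ideal.mul_mem_left _ _ h₂)

/-- **A point over the closed point of `Spec R[y]` is closed.** -/
theorem isMaximal_of_coord_mem (y : B)
    (hint : ∀ b : B, IsIntegral (Algebra.adjoin R ({y} : Set B)) b)
    (n : Ideal B) [hn : n.IsPrime] (hy : y ∈ n)
    (hR : ∀ r ∈ IsLocalRing.maximalIdeal R, algebraMap R B r ∈ n) : n.IsMaximal := by
  set S₀ := Algebra.adjoin R ({y} : Set B) with hS₀
  haveI : Algebra.IsIntegral S₀ B := ⟨hint⟩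
  have hspan : Ideal.span ({y} : Set B) ≤ n := by
    rw [Ideal.span_singleton_le_iff_mem]
    exact hy
  have hcomap : (n.comap (algebraMap S₀ B)).IsMaximal := by
    rw [Ideal.isMaximal_iff]
    refine ⟨fun h1 => hn.ne_top ((Ideal.eq_top_iff_one _).mpr (by simpa using h1)), ?_⟩
    intro J s hnJ hs hsJ
    obtain ⟨r, hr⟩ := exists_const_sub_mem_span (R := R) y (s : B) s.2
    have hrn : algebraMap R B r ∉ n := by
      intro h
      apply hs
      rw [Ideal.mem_comap]
      have : algebraMap S₀ B s = ((s : B) - algebraMap R B r) + algebraMap R B r := by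
        rw [sub_add_cancel]; rfl
      rw [this]
      exact n.add_mem (hspan hr) h
    have hru : IsUnit r := by
      by_contra hnu
      exact hrn (hR r ((IsLocalRing.mem_maximalIdeal r).mpr hnu))
    obtain ⟨r', hr'⟩ := hru.exists_right_inv
    -- `1 = r' * s - r' * (s - r)` in `S₀`
    have h1 : algebraMap R S₀ r' * s - 1 ∈ n.comap (algebraMap S₀ B) := by
      rw [Ideal.mem_comap]
      have e : algebraMap S₀ B (algebraMap R S₀ r' * s - 1) =
          algebraMap R B r' * ((s : B) - algebraMap R B r) := by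
        rw [map_sub, map_mul, map_one, ← IsScalarTower.algebraMap_apply, mul_sub, ← map_mul,
          mul_comm r' r, hr', map_one]
        rfl
      rw [e]
      exact n.mul_mem_left _ (hspan hr)
    have h2 : algebraMap R S₀ r' * s ∈ J := J.mul_mem_left _ hsJ
    have h3 : algebraMap R S₀ r' * s - (algebraMap R S₀ r' * s - 1) ∈ J :=
      J.sub_mem h2 (hnJ h1)
    simpa using h3
  exact Ideal.isMaximal_of_isIntegral_of_isMaximal_comap n hcomap

end Maximal

section Sub

variable {R F : Type*} [CommRing R] [Field F] [Algebra R F]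

/-- integrality over `R[y] ⊆ F` of an element of a subalgebra `B ∋ y` is integrality over
`R[y] ⊆ B`. -/
theorem isIntegral_adjoin_sub (B : Subalgebra R F) (y : B) (b : B)
    (hb : IsIntegral (Algebra.adjoin R ({(y : F)} : Set F)) (b : F)) :
    IsIntegral (Algebra.adjoin R ({y} : Set B)) b := by
  classical
  -- the comparison map `R[y] ⊆ F → R[y] ⊆ B`
  have hle : ∀ s : F, s ∈ Algebra.adjoin R ({(y : F)} : Set F) →
      ∃ s' : B, s' ∈ Algebra.adjoin R ({y} : Set B) ∧ (s' : F) = s := by
    intro s hs
    induction hs using Algebra.adjoin_induction with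
    | mem x hx =>
      rw [Set.mem_singleton_iff] at hx
      subst hx
      exact ⟨y, Algebra.subset_adjoin (Set.mem_singleton y), rfl⟩
    | algebraMap r => exact ⟨algebraMap R B r, Subalgebra.algebraMap_mem _ r, rfl⟩
    | add a c _ _ ha hc =>
      obtain ⟨a', ha', rfl⟩ := ha
      obtain ⟨c', hc', rfl⟩ := hc
      exact ⟨a' + c', add_mem ha' hc', rfl⟩
    | mul a c _ _ ha hc =>
      obtain ⟨a', ha', rfl⟩ := ha
      obtain ⟨c', hc', rfl⟩ := hc
      exact ⟨a' * c', mul_mem ha' hc', rfl⟩
  choose g hg hgs using hle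
  let ψ : Algebra.adjoin R ({(y : F)} : Set F) →+* Algebra.adjoin R ({y} : Set B) :=
    { toFun := fun s => ⟨g s s.2, hg s s.2⟩
      map_one' := by
        apply Subtype.ext; apply Subtype.ext
        show ((g _ _ : B) : F) = 1
        rw [hgs]; rfl
      map_mul' := fun a c => by
        apply Subtype.ext; apply Subtype.ext
        show ((g _ _ : B) : F) = ((g _ _ : B) : F) * ((g _ _ : B) : F)
        rw [hgs, hgs, hgs]; rfl
      map_zero' := by
        apply Subtype.ext; apply Subtype.ext
        show ((g _ _ : B) : F) = 0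
        rw [hgs]; rfl
      map_add' := fun a c => by
        apply Subtype.ext; apply Subtype.ext
        show ((g _ _ : B) : F) = ((g _ _ : B) : F) + ((g _ _ : B) : F)
        rw [hgs, hgs, hgs]; rfl }
  obtain ⟨P, hP, hPb⟩ := hb
  refine ⟨P.map ψ, hP.map ψ, ?_⟩
  rw [Polynomial.eval₂_map]
  apply Subtype.ext
  have h1 : (B.val : B →+* F).comp
      ((algebraMap (Algebra.adjoin R ({y} : Set B)) B).comp ψ) =
      algebraMap (Algebra.adjoin R ({(y : F)} : Set F)) F := by
    ext s
    show ((g _ _ : B) : F) = _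
    rw [hgs]; rfl
  have h2 := Polynomial.hom_eval₂ P ((algebraMap (Algebra.adjoin R ({y} : Set B)) B).comp ψ)
    (B.val : B →+* F) b
  rw [h1] at h2
  show ((Polynomial.eval₂ ((algebraMap (Algebra.adjoin R ({y} : Set B)) B).comp ψ) b P : B) : F)
    = ((0 : B) : F)
  rw [ZeroMemClass.coe_zero, ← hPb]
  exact h2

end Sub

end Fermat.Agent.Ribet.H399
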