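import Fermat.Agent.Ribet.H399.CuspPure
import Fermat.Agent.A2.Alg.H754.PuritySmooth

/-!
# Row 38, W-EIS leaf CUSP, piece (I) (helper399): one-sided purity at a smooth point of a chart

Chart form of `pure_smooth_one`: `B` a chart (`A2.Alg.ChartCtx`), `p`, `p'` its two components
(`p ⊓ p' = (w)`), `n` a closed point on `p` and not on `p'`.  A function `u` with
`A2.DivisibleDiv E m u` (`m` ARBITRARY, e.g. the residue characteristic) becomes, after
multiplication by a power of `w` and an `m`-th power `d ^ m`, a unit at `n`, with `d` a unit at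
`p`.  No hypothesis on the behaviour of `u` on the components (no `IsSplit`).
-/

set_option autoImplicit false
set_option linter.style.haveILetI false
set_option linter.unusedSectionVars false
set_option linter.unusedVariables false

noncomputable section

namespace Fermat.Agent.Ribet.H399

open Polynomial IsLocalRing
open Fermat.Agent.A2 Fermat.Agent.A2.Alg Fermat.Agent.A2.Alg.H754

variable {R E F : Type*} [CommRing R] [IsDomain R] [IsDiscreteValuationRing R]
  [Field E] [Algebra R E] [IsFractionRing R E]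
  [Field F] [Algebra E F] [Algebra R F] [IsScalarTower R E F]

/-- `m ∣ div u` at every horizontal height-one prime of the chart. -/
theorem horizontal_of_divisibleDiv (w : R) (hw : Irreducible w) (B : Subalgebra R F)
    [IsNoetherianRing B] [IsIntegrallyClosed B] [IsFractionRing B F]
    (m : ℕ) (u : F) (hu : u ≠ 0) (hdiv : DivisibleDiv E m u)
    (𝔭 : Ideal B) (h𝔭 : 𝔭.IsPrime) (hht : 𝔭.height = 1) (hw𝔭 : algebraMap R B w ∉ 𝔭) :
    ∃ t : F, ∃ a s : B, a ∉ 𝔭 ∧ s ∉ 𝔭 ∧ u * t ^ m * algebraMap B F s = algebraMap B F a := by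
  haveI := h𝔭
  obtain ⟨W, hdvr, hW⟩ := Fermat.Agent.S18.H438.exists_dvr_of_height_one (F := F) 𝔭 hht
  have hE : ∀ e : E, algebraMap E F e ∈ W := by
    intro e
    obtain ⟨a, b, hb, rfl⟩ := IsFractionRing.div_surjective (A := R) e
    have hb0 : b ≠ 0 := nonZeroDivisors.ne_zero hb
    obtain ⟨k, υ, hbk⟩ := IsDiscreteValuationRing.eq_unit_mul_pow_irreducible hb0 hw
    have hb𝔭 : algebraMap R B b ∉ 𝔭 := by
      rw [hbk, map_mul, map_pow]
      intro h
      rcases h𝔭.mem_or_mem h with h | h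
      · exact h𝔭.ne_top (Ideal.eq_top_of_isUnit_mem _ h (υ.isUnit.map (algebraMap R B)))
      · exact hw𝔭 (h𝔭.mem_of_pow_mem k h)
    have hbF : algebraMap R F b ≠ 0 := fun h0 =>
      hb0 (algebraMap_base_injective (E := E) (F := F) (by rw [h0, map_zero]))
    refine (hW _).2 ⟨algebraMap R B a, algebraMap R B b, hb𝔭, ?_⟩
    rw [← IsScalarTower.algebraMap_apply R B F, ← IsScalarTower.algebraMap_apply R B F,
      map_div₀, ← IsScalarTower.algebraMap_apply R E F, ← IsScalarTower.algebraMap_apply R E F,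
      div_mul_cancel₀ _ hbF]
  obtain ⟨h, u₀, hh, hu₀, hu₀', huu⟩ := hdiv W hdvr hE
  have hu₀0 : u₀ ≠ 0 := by
    rintro rfl
    rw [zero_mul] at huu
    exact hu huu
  obtain ⟨a, s, ha, hs', has⟩ :=
    (locU_iff_of_valuationSubring 𝔭 W hW hu₀0).2 ⟨hu₀, hu₀'⟩
  refine ⟨h⁻¹, a, s, ha, hs', ?_⟩
  rw [huu, inv_pow, mul_assoc u₀, mul_inv_cancel₀ (pow_ne_zero _ hh), mul_one]
  exact has

/-- **One-sided purity at a smooth point of a chart** (`m` arbitrary, no `IsSplit`). -/
theorem pure_smooth_one_chart [CharZero E] (m : ℕ) (hm : 0 < m)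
    (w : R) (x : F) (B : Subalgebra R F) (hB : ChartCtx E w x B)
    (u : F) (hu : u ≠ 0) (hdiv : DivisibleDiv E m u)
    (p p' : Ideal B) (hp : p.IsPrime) (hp' : p'.IsPrime)
    (hinf : p ⊓ p' = Ideal.span {algebraMap R B w}) (h21 : ¬ p' ≤ p)
    (hnorm : IsIntegrallyClosed (B ⧸ p))
    (n : Ideal B) (hn : n.IsMaximal) (hpn : p ≤ n) (hp'n : ¬ p' ≤ n) :
    ∃ (k : ℤ) (d : F), d ≠ 0 ∧ LocUnit B n (u * (algebraMap R F w) ^ k * d ^ m) ∧
      LocUnit B p d := by
  obtain ⟨hN, hIC, hFr⟩ := chart_package w x B hB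
  haveI := hN
  haveI := hIC
  haveI := hFr
  haveI := hp
  haveI := hp'
  have hwB0 : algebraMap R B w ≠ 0 := fun h0 =>
    hB.hw.ne_zero (algebraMap_chart_injective (E := E) B (by rw [h0, map_zero]))
  have hwp : algebraMap R B w ∈ p := by
    have : algebraMap R B w ∈ p ⊓ p' := hinf ▸ Ideal.mem_span_singleton_self _
    exact this.1
  have hD : IsDedekindDomain (B ⧸ p) := isDedekindDomain_component w x B hB p hwp hnorm
  obtain ⟨k, d, hd0, hU, hdp⟩ := pure_smooth_one (algebraMap R B w) hwB0 p p' hinf h21 hD n hn hpn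
    hp'n m hm u hu
    (fun 𝔭 h𝔭 hht hw𝔭 => horizontal_of_divisibleDiv w hB.hw B m u hu hdiv 𝔭 h𝔭 hht hw𝔭)
  exact ⟨k, d, hd0, hU, hdp⟩

end Fermat.Agent.Ribet.H399

end
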