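import Fermat.Agent.Ribet.H399.CuspTheta
import Fermat.Agent.Ribet.H399.CuspPureChart
import Fermat.Agent.Ribet.H399.CuspPoint
import Fermat.Agent.Ribet.H399.CuspDict
import Fermat.Agent.Ribet.H399.CuspNoNode
import Fermat.Agent.A2.Mod.H13.S1
import Fermat.Agent.A2.Mod.H553.VzeroNe
import Fermat.Agent.A2.Mod.H31.Deg
import Fermat.Agent.A2.Mod.H753.IndInf
import Fermat.Agent.A2.Mod.H753.IndZero
import Fermat.Agent.A2.Mod.H142.S2Final
import Fermat.Agent.A2.Mod.H216.GoodRedAll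
import Fermat.Agent.A2.Mod.H751.Fricke
import Fermat.Agent.A2.Alg.H34.Basic
import Fermat.Agent.S37.H940.PlaceBasic
import Fermat.Agent.Ribet.H939.ResField
import Fermat.Agent.Ribet.H884.EisSpec

/-!
# Row 38, W-EIS leaf CUSP (helper399): the one-sided core at a good level `E`

`p ≥ 5` prime, `p ∤ M`, `A` over `p`, `E` a good level (`A2.GoodField A E`), `y ∈ F_{Mp,E}` with
`A2.DivisibleDiv E m y` (`m` arbitrary).  Then `y` has a reduction `r ∈ k(X₀(M))` on `C∞` with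
`m ∣ ord_Q r` at every CUSPIDAL place `Q` (`ord_Q j < 0`).

Proof: the chart at infinity `Bi` of the level-`Mp` model (coordinate `1/x`, `x = j j_p`);
`θ : V∞ → k(X₀(M))` (`CuspTheta`); the point `n_Q = θ⁻¹(𝔪_Q) ∩ Bi` (`Dict.pointOfPlace`, helper280) is a
closed point (`isMaximal_of_coord_mem`) on `p₁ = Bi ∩ w V∞`, not on `p₂` (`NoNode.no_node_at_infinity`, helper153: cusps
are not nodes); one-sided purity at the smooth point `n_Q` (`pure_smooth_one_chart`); and
`Dict.dvd_ord_of_locUnit`.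
-/

set_option autoImplicit false
set_option linter.unusedSectionVars false
set_option linter.style.haveILetI false
set_option linter.unusedVariables false
set_option synthInstance.maxHeartbeats 400000
set_option maxHeartbeats 3200000

noncomputable section

namespace Fermat.Agent.Ribet.H399

open AlgebraicCurve ModularCurve HahnSeries
open Fermat.Agent.S24 Fermat.Agent.A2.H708
open Fermat.Agent.Ribet.H884 Fermat.Agent.Ribet.H997
open Fermat.Agent.A2 Fermat.Agent.S28.H86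

/-- `IsRedSer` is insensitive to nonzero constant factors. -/
theorem isRedSer_cst_mul {A : ValuationSubring Kbar} {z : LaurentSeries Kbar}
    {r : LaurentSeries (kA A)} (h : IsRedSer A z r) {c : Kbar} (hc : c ≠ 0) :
    IsRedSer A (cst c * z) r := by
  obtain ⟨c₀, U₁, U₂, hc₀, h₁, h₂, he, hr⟩ := h
  refine ⟨c * c₀, U₁, U₂, mul_ne_zero hc hc₀, h₁, h₂, ?_, hr⟩
  rw [mul_assoc, he, H708.cst_mul, mul_assoc]

theorem coe_algebraMap_fullC (k : Type) [Field k] (M : ℕ) (c : k) :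
    ((algebraMap k (modularFunctionFieldFullC k M) c : modularFunctionFieldFullC k M) :
      LaurentSeries k) = HahnSeries.C c := by
  have h0 : ((algebraMap k (modularFunctionFieldFullC k M) c :
      modularFunctionFieldFullC k M) : LaurentSeries k) = algebraMap k (LaurentSeries k) c := rfl
  have h1 : algebraMap k (PowerSeries k) c = PowerSeries.C c := by simp
  rw [h0, HahnSeries.algebraMap_apply', h1, HahnSeries.ofPowerSeries_C]

section Core

variable {M p : ℕ} [NeZero M] [NeZero p] {A : ValuationSubring Kbar}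
  {E : IntermediateField ℚ Kbar}

/-- elements of the chart outside `p₁ = Bi ∩ w V∞` are units of `V∞`. -/
theorem inv_mem_of_not_mem_cut {N : ℕ} {w : Mod.RE A E} {V : ValuationSubring (Mod.FE E N)}
    (hu : H48.IsUnif V (Mod.cE A E N w)) {B : Subalgebra (Mod.RE A E) (Mod.FE E N)}
    {p₁ : Ideal B} (hc : Mod.IsCut A E N w V B p₁) (hBV : ∀ b : B, (b : Mod.FE E N) ∈ V)
    {b : B} (hb : b ∉ p₁) : ((b : Mod.FE E N))⁻¹ ∈ V := by
  by_contra hinv
  apply hb
  rw [hc b]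
  exact hu.gen _ (hBV b) hinv

/-- **The one-sided core at a good level.** -/
theorem cusp_core_E (hp : p.Prime) (hp5 : 5 ≤ p) (hpM : ¬ p ∣ M)
    (hA : A.LiesOverPrime p) (hE : GoodField A E) (m : ℕ) (hm : 0 < m)
    (y : Mod.FE E (M * p)) (hy0 : y ≠ 0) (hdiv : DivisibleDiv E m y)
    (Q : Place (kA A) (modularFunctionFieldFullC (kA A) M))
    (hQ : Q.ord (jC (kA A) M) < 0) :
    ∃ r : modularFunctionFieldFullC (kA A) M,
      IsRedSer A (coeffMap (algebraMap E Kbar) ((y : Mod.FE E (M * p)) : LaurentSeries E))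
        (r : LaurentSeries (kA A)) ∧ (m : ℤ) ∣ Q.ord r := by
  classical
  haveI hdvr : IsDiscreteValuationRing (Mod.RE A E) := hE.dvr
  obtain ⟨w, hw⟩ := IsDiscreteValuationRing.exists_irreducible (Mod.RE A E)
  have hM0 : M ≠ 0 := NeZero.ne M
  have hN : M * p ≠ 0 := Nat.mul_ne_zero hM0 hp.ne_zero
  have hSet : Mod.Setting A E M p w := ⟨hp, hpM, hM0, hA, hdvr, hw⟩
  obtain ⟨VM, hVM⟩ := Mod.H553.vinfExists A E M hM0 hdvr
  obtain ⟨V, hV⟩ := Mod.H553.vinfExists A E (M * p) hN hdvr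
  obtain ⟨W, hW⟩ := Mod.H751.frickeExists E (M * p) hN
  obtain ⟨hu, hconstV, hjV⟩ := Mod.H708.vinfBasic A E w (M * p) hN hdvr hw V hV
  -- the chart at infinity
  set Bi := Mod.chartAlg A E (M * p) (Mod.xE E M p)⁻¹ with hBi
  have hS1 : Mod.S1Statement A E M p w :=
    Mod.H13.s1 (Mod.H553.vzeroNe A E M p w) (Mod.H31.deg E M p) (Mod.H753.indInf A E M p w)
      (Mod.H753.indZero A E M p w)
  obtain ⟨p₁, p₂, hc₁, hc₂, hp₁, hp₂, h₁₂, h₂₁, hinf⟩ :=
    hS1 hSet V W hV hW (Mod.xE E M p)⁻¹ (Or.inr rfl)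
  have hgood : Mod.GoodRedHyp A E M :=
    Top.H216.goodRedStatement A E M p hp hpM (fun h => by omega) (fun h => by omega) hA hE
  obtain ⟨-, hg2⟩ := hgood w VM hw hVM
  obtain ⟨hn₁, -⟩ := Mod.H142.s2 A E M p w hSet VM V W hVM hV hW _ _ (Or.inr ⟨rfl, rfl⟩) hg2
    p₁ p₂ hc₁ hc₂
  obtain ⟨htr, hfr, hconst⟩ := Mod.H31.deg E M p hp hpM
  have hpos : 0 < Module.finrank
      (IntermediateField.adjoin E ({Mod.xE E M p} : Set (Mod.FE E (M * p))))
      (Mod.FE E (M * p)) := by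
    rw [hfr]
    have h1 := Mod.dedekindPsi_pos_of_ne_zero M hM0
    positivity
  have hfin : FiniteDimensional
      (IntermediateField.adjoin E ({Mod.xE E M p} : Set (Mod.FE E (M * p))))
      (Mod.FE E (M * p)) := Module.finite_of_finrank_pos hpos
  have hCtx : Alg.ChartCtx E w (Mod.xE E M p)⁻¹ (Mod.chartAlg A E (M * p) (Mod.xE E M p)⁻¹) :=
    Alg.H34.chartCtx_inv w hw (Mod.xE E M p) htr hfin hconst _ (fun _ => Iff.rfl)
  -- `Bi ⊆ V`
  have hRV : ∀ r : Mod.RE A E, algebraMap (Mod.RE A E) (Mod.FE E (M * p)) r ∈ V := fun r =>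
    (hconstV (r : E)).mpr r.2
  have hj1 := hjV 1 (one_dvd _)
  have hjp := hjV p (dvd_mul_left p M)
  have hxV : Mod.xE E M p ∈ V := V.mul_mem _ _ hj1.1 hjp.1
  have hxinvV : (Mod.xE E M p)⁻¹ ∈ V := by
    have e : (Mod.xE E M p)⁻¹ = (Mod.jE E (M * p) 1 (one_dvd _))⁻¹ *
        (Mod.jE E (M * p) p (dvd_mul_left p M))⁻¹ := by
      rw [Mod.xE, mul_inv]
    rw [e]
    exact V.mul_mem _ _ hj1.2 hjp.2
  have hBV : ∀ b : Bi, (b : Mod.FE E (M * p)) ∈ V := fun b =>
    Mod.H142.mem_valuationSubring_of_isIntegral_adjoin V hRV hxinvV b.2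
  -- the reduction map
  set θ := thetaK hp hpM hA hV with hθ
  haveI hchar : CharP (kA A) p := (Fermat.Agent.Ribet.H939.resField p hp A hA).2
  have hθj : θ ⟨_, hj1.1⟩ = jC (kA A) M := by
    apply Subtype.ext
    rw [coe_thetaK, thetaHom_jE]
    exact qExpand_one_apply _
  have hθjp : θ ⟨_, hjp.1⟩ = jC (kA A) M ^ p := by
    apply Subtype.ext
    rw [coe_thetaK, thetaHom_jE]
    have h1 := Mod.H96.jqd_pow_char (kA A) p hp 1
    rw [qExpand_one_apply] at h1
    rw [← h1]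
    rfl
  have hj0 : jC (kA A) M ≠ 0 := by
    intro h
    rw [h, Place.ord_zero] at hQ
    exact lt_irrefl _ hQ
  have hθx : θ ⟨_, hxV⟩ = jC (kA A) M ^ (p + 1) := by
    have e : (⟨Mod.xE E M p, hxV⟩ : V) = ⟨_, hj1.1⟩ * ⟨_, hjp.1⟩ := rfl
    rw [e, map_mul, hθj, hθjp, pow_succ, mul_comm]
  have hθxinv : θ ⟨_, hxinvV⟩ = (jC (kA A) M ^ (p + 1))⁻¹ := by
    have hx0 : Mod.xE E M p ≠ 0 := by
      intro h0
      rw [h0] at htr
      exact htr (isAlgebraic_zero)
    have e : (⟨Mod.xE E M p, hxV⟩ : V) * ⟨_, hxinvV⟩ = 1 := Subtype.ext (mul_inv_cancel₀ hx0)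
    have h1 := congrArg θ e
    rw [map_mul, map_one, hθx] at h1
    exact eq_inv_of_mul_eq_one_right h1
  have hordxinv : 0 < Q.ord (θ ⟨_, hxinvV⟩) := by
    rw [hθxinv, Place.ord_inv, ← zpow_natCast, Place.ord_zpow]
    have : (0 : ℤ) < ((p + 1 : ℕ) : ℤ) := by positivity
    nlinarith
  -- the chart reduction
  set yB : Bi := ⟨(Mod.xE E M p)⁻¹, Mod.H142.self_mem_chartAlg A E (M * p) _⟩ with hyB
  have hint : ∀ b : Bi, IsIntegral (Algebra.adjoin (Mod.RE A E) ({yB} : Set Bi)) b :=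
    fun b => isIntegral_adjoin_sub Bi yB b b.2
  have hφconst : ∀ r : Mod.RE A E,
      Dict.chartRed Bi V hBV θ (algebraMap (Mod.RE A E) Bi r) =
        algebraMap (kA A) (modularFunctionFieldFullC (kA A) M)
          (IsLocalRing.residue A (toA' A E r)) := by
    intro r
    apply Subtype.ext
    rw [Dict.chartRed_apply, coe_thetaK]
    exact (thetaHom_const hV r (hRV r)).trans (coe_algebraMap_fullC (kA A) M _).symm
  have hRQ : ∀ r : Mod.RE A E,
      Dict.chartRed Bi V hBV θ (algebraMap (Mod.RE A E) Bi r) ∈ Q.toValuationSubring := by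
    intro r
    rw [hφconst]
    exact Q.algebraMap_mem' _
  have hφy : Dict.chartRed Bi V hBV θ yB = θ ⟨_, hxinvV⟩ := rfl
  have hyQ : Dict.chartRed Bi V hBV θ yB ∈ Q.toValuationSubring := by
    rw [hφy]
    exact (Fermat.Agent.S24.FF.mem_iff_ord_nonneg Q).mpr hordxinv.le
  have hmem := Dict.chartRed_mem Bi V θ Q yB hint hRQ hyQ
  set n := Dict.pointOfPlace Bi V θ Q hmem with hn
  haveI hnprime : n.IsPrime := Dict.pointOfPlace_isPrime Bi V θ Q hmem
  have hmem_n : ∀ b : Bi, b ∈ n ↔ Fermat.Agent.S37.H940.InMax Q (Dict.chartRed Bi V hBV θ b) := by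
    intro b
    rw [Dict.mem_pointOfPlace, Fermat.Agent.S37.H940.inMax_iff_exists_mem_maximalIdeal]
    exact ⟨fun h => ⟨hmem b, h⟩, fun ⟨_, h⟩ => h⟩
  have hyn : yB ∈ n := (hmem_n yB).mpr (Or.inr (by rw [hφy]; exact hordxinv))
  have hwn : ∀ r ∈ IsLocalRing.maximalIdeal (Mod.RE A E),
      algebraMap (Mod.RE A E) Bi r ∈ n := by
    intro r hr
    apply Dict.mem_pointOfPlace_of_eq_zero
    rw [hφconst]
    have : IsLocalRing.residue A (toA' A E r) = 0 := by
      rw [residue_eq_zero_iff_not_isUnit', isUnit_toA'_iff]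
      exact (IsLocalRing.mem_maximalIdeal r).mp hr
    rw [this, map_zero]
  have hnmax : n.IsMaximal := isMaximal_of_coord_mem yB hint n hyn hwn
  have hp₁n : p₁ ≤ n := by
    intro b hb
    apply Dict.mem_pointOfPlace_of_eq_zero
    have hInW := (hc₁ b).mp hb
    apply Subtype.ext
    rw [Dict.chartRed_apply, coe_thetaK]
    show thetaHom hV ⟨(b : Mod.FE E (M * p)), hBV b⟩ = 0
    rw [thetaHom_eq_zero_iff hV hw hu]
    by_cases hb0 : (b : Mod.FE E (M * p)) = 0
    · right; exact hb0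
    · left
      intro hinv
      have h1 : (Mod.cE A E (M * p) w)⁻¹ ∈ V := by
        have h2 := V.mul_mem _ _ hInW hinv
        have e : (b : Mod.FE E (M * p)) * (Mod.cE A E (M * p) w)⁻¹ * (b : Mod.FE E (M * p))⁻¹ =
            (Mod.cE A E (M * p) w)⁻¹ := by
          field_simp
        rwa [e] at h2
      exact hu.inv_not_mem h1
  have hp₂n : ¬ p₂ ≤ n := fun h =>
    NoNode.no_node_at_infinity w hSet V W hV hW p₁ p₂ hc₁ hc₂ n hnmax.ne_top
      hp₁n h yB rfl hyn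
  -- purity at the smooth point `n`
  obtain ⟨k, d, hd0, hU, hdp⟩ := pure_smooth_one_chart (E := E) m hm w (Mod.xE E M p)⁻¹ Bi hCtx
    y hy0 hdiv p₁ p₂ hp₁ hp₂ hinf h₂₁ hn₁ n hnmax hp₁n hp₂n
  have hunitV : ∀ b : Bi, b ∉ p₁ → ((b : Mod.FE E (M * p)))⁻¹ ∈ V := fun b hb =>
    inv_mem_of_not_mem_cut hu hc₁ hBV hb
  have hne0 : ∀ b : Bi, b ∉ p₁ → (b : Mod.FE E (M * p)) ≠ 0 := by
    intro b hb h0
    apply hb
    have : b = 0 := Subtype.ext h0
    rw [this]
    exact Ideal.zero_mem _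
  -- `d` is a unit of `V`
  obtain ⟨a', b', ha', hb', hab'⟩ := hdp
  have hd_eq : d = (a' : Mod.FE E (M * p)) * (b' : Mod.FE E (M * p))⁻¹ := by
    rw [← hab', mul_assoc, mul_inv_cancel₀ (hne0 b' hb'), mul_one]
  have hdV : d ∈ V := by
    rw [hd_eq]
    exact V.mul_mem _ _ (hBV a') (hunitV b' hb')
  have hdV' : d⁻¹ ∈ V := by
    rw [hd_eq, mul_inv, inv_inv]
    exact V.mul_mem _ _ (hunitV a' ha') (hBV b')
  -- `u = y w^k` is a unit of `V`
  set e : E := ((w : E)) ^ k with he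
  have hw0 : (w : E) ≠ 0 := fun h => hw.ne_zero (Subtype.ext h)
  have he0 : e ≠ 0 := zpow_ne_zero _ hw0
  have hwk : (algebraMap (Mod.RE A E) (Mod.FE E (M * p)) w) ^ k =
      algebraMap E (Mod.FE E (M * p)) e := by
    rw [he, map_zpow₀]
    rfl
  rw [hwk] at hU
  set u : Mod.FE E (M * p) := y * algebraMap E (Mod.FE E (M * p)) e with hudef
  have hU' := hU
  obtain ⟨a, b, ha, hb, hab⟩ := hU
  have han : a ∉ p₁ := fun h => ha (hp₁n h)
  have hbn : b ∉ p₁ := fun h => hb (hp₁n h)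
  have hdm0 : d ^ m ≠ 0 := pow_ne_zero _ hd0
  have hu_eq : u = (a : Mod.FE E (M * p)) * (b : Mod.FE E (M * p))⁻¹ * (d⁻¹) ^ m := by
    have hb0 := hne0 b hbn
    rw [← hab, inv_pow]
    field_simp
  have hu0 : u ≠ 0 :=
    mul_ne_zero hy0 (by rwa [Ne, map_eq_zero_iff _ (algebraMap E (Mod.FE E (M * p))).injective])
  have huV : u ∈ V := by
    rw [hu_eq]
    exact V.mul_mem _ _ (V.mul_mem _ _ (hBV a) (hunitV b hbn)) (V.pow_mem hdV' m)
  have huV' : u⁻¹ ∈ V := by
    rw [hu_eq, mul_inv, mul_inv, inv_inv, ← inv_pow, inv_inv]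
    exact V.mul_mem _ _ (V.mul_mem _ _ (hunitV a han) (hBV b)) (V.pow_mem hdV m)
  have hord := Dict.dvd_ord_of_locUnit Bi V θ Q hmem m huV hdV hdV' hd0 hU'
  refine ⟨θ ⟨u, huV⟩, ?_, hord⟩
  -- the reduction
  have hθu0 : thetaHom hV ⟨u, huV⟩ ≠ 0 := thetaHom_ne_zero_of_inv_mem hV _ huV' hu0
  have h1 := isRedSer_thetaHom hV ⟨u, huV⟩ hθu0
  have hcoe : ((u : Mod.FE E (M * p)) : LaurentSeries E) =
      ((y : Mod.FE E (M * p)) : LaurentSeries E) * cst e := rfl
  have h2 : coeffMap (algebraMap E Kbar) ((y : Mod.FE E (M * p)) : LaurentSeries E) =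
      cst ((algebraMap E Kbar e)⁻¹) *
        coeffMap (algebraMap E Kbar) ((u : Mod.FE E (M * p)) : LaurentSeries E) := by
    have heK : algebraMap E Kbar e ≠ 0 := by
      rwa [Ne, map_eq_zero_iff _ (algebraMap E Kbar).injective]
    rw [hcoe, map_mul, Fermat.Agent.S18.H602.coeffMap_algebraMap', ← mul_assoc,
      mul_comm (cst ((algebraMap E Kbar e)⁻¹)) (coeffMap (algebraMap E Kbar) _), mul_assoc,
      cst_inv_mul_cst heK, mul_one]
  rw [coe_thetaK, h2]
  exact isRedSer_cst_mul h1 (inv_ne_zero (by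
    rwa [Ne, map_eq_zero_iff _ (algebraMap E Kbar).injective]))

end Core

end Fermat.Agent.Ribet.H399

end
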