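import Fermat.Agent.Ribet.H399.CuspGen
import Fermat.Agent.Ribet.H704.EisSpec

/-!
# Row 38, (S4): OFF-FIN of `Ribet/H704/EisSpec.lean` for `p ≥ 5` (helper399)

`H704.Eis.FinGenOff` is `H884.NodeGen` (same definition, `jK = jC`), so OFF-FIN is CUSP:
`offFin5` is `H704.Eis.OffFinStatement` with the extra hypothesis `5 ≤ p`.
-/

set_option autoImplicit false

noncomputable section

namespace Fermat.Agent.Ribet.H399

open AlgebraicCurve ModularCurve HahnSeries
open Fermat.Agent.S24 Fermat.Agent.Ribet.H884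

/-- **OFF-FIN for `p ≥ 5`.** -/
theorem offFin5 (p M' : ℕ) [NeZero M'] [NeZero p] [NeZero (p * M')] (hp : p.Prime)
    (hp5 : 5 ≤ p) (hpM : ¬ p ∣ M') (A : ValuationSubring Kbar) (hA : A.LiesOverPrime p)
    (x : JZero (p * M')) (f : FF (p * M')) (hK : IsKummerGen (p * M') p f x)
    (hoff : Fermat.Agent.Ribet.H704.Eis.FinGenOff p M' A f) : FinGen p M' A f := by
  obtain ⟨r₁, r₂, h1, h2, h3, h4⟩ := hoff
  exact cuspPurity5 p M' hp hp5 hpM A hA f x hK ⟨r₁, r₂, h1, h2, h3, h4⟩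

end Fermat.Agent.Ribet.H399

end
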