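import Fermat.Agent.A2.Alg.H754.SmoothAbs

/-!
# Row 38, W-EIS leaf CUSP, piece (I) (helper399): one-sided purity at a smooth point,
# WITHOUT any hypothesis on the other component

`B` a Noetherian integrally closed domain with fraction field `F`, `ϖ ≠ 0` with
`(ϖ) = p ⊓ p'` (two incomparable primes), `B / p` Dedekind, `n` a maximal ideal with `p ≤ n`,
`¬ p' ≤ n` (a smooth point of the special fibre lying on the component `p`).

If `u ∈ Fˣ` has divisor divisible by `m` at every HORIZONTAL height-one prime (`ϖ ∉ 𝔭`), then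
there are `k : ℤ` and `d ∈ Fˣ` with `u ϖ^k d^m` a unit at `n` and `d` a unit at `p`.

(Compared with `A2.Alg.H754.pure_smooth_abs`: no hypothesis at the vertical primes `p`, `p'`;
this is what is needed at `m = p` where the Kummer generator is not split on the components.)
-/

set_option autoImplicit false
set_option linter.style.haveILetI false
set_option linter.unusedSectionVars false

noncomputable section

namespace Fermat.Agent.Ribet.H399

open IsLocalRing
open Fermat.Agent.A2.Alg.H754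
open Fermat.Agent.S18.H754 (LocallyPow)

variable {B F : Type*} [CommRing B] [IsDomain B] [Field F] [Algebra B F] [IsFractionRing B F]
variable [IsNoetherianRing B] [IsIntegrallyClosed B]

/-- **One-sided purity at a smooth point, abstract form.** -/
theorem pure_smooth_one (ϖ : B) (hϖ : ϖ ≠ 0) (p p' : Ideal B) [hp : p.IsPrime]
    [hp' : p'.IsPrime] (hinf : p ⊓ p' = Ideal.span {ϖ}) (h21 : ¬ p' ≤ p)
    (hD : IsDedekindDomain (B ⧸ p))
    (n : Ideal B) (hn : n.IsMaximal) (hpn : p ≤ n) (hp'n : ¬ p' ≤ n)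
    (m : ℕ) (hm : 0 < m) (u : F) (hu : u ≠ 0)
    (hdiv : ∀ 𝔭 : Ideal B, 𝔭.IsPrime → 𝔭.height = 1 → ϖ ∉ 𝔭 →
      ∃ t : F, ∃ a s : B, a ∉ 𝔭 ∧ s ∉ 𝔭 ∧ u * t ^ m * algebraMap B F s = algebraMap B F a) :
    ∃ (k : ℤ) (d : F), d ≠ 0 ∧ LocU n (u * (algebraMap B F ϖ) ^ k * d ^ m) ∧ LocU p d := by
  classical
  haveI hnp : n.IsPrime := hn.isPrime
  have h1n : (1 : B) ∉ n := fun h1 => hnp.ne_top ((Ideal.eq_top_iff_one _).2 h1)
  have hinj : Function.Injective (algebraMap B F) := IsFractionRing.injective B F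
  obtain ⟨g₀, hg₀p', hg₀n⟩ := SetLike.not_le_iff_exists.1 hp'n
  have hg₀p : g₀ ∉ p := fun h => hg₀n (hpn h)
  have hϖpp : ϖ ∈ p ⊓ p' := hinf ▸ Ideal.mem_span_singleton_self ϖ
  have hϖp : ϖ ∈ p := hϖpp.1
  have hϖn : ϖ ∈ n := hpn hϖp
  have hϖF : algebraMap B F ϖ ≠ 0 := fun h0 => hϖ (hinj (by rw [h0, map_zero]))
  have hhtp : p.height = 1 := height_eq_one_of_inf ϖ hϖ p p' hinf h21
  -- normalise `u` at `p`
  have hgen : ∀ a ∈ p, ∃ g : B, g ∉ p ∧ ∃ c : B, g * a = ϖ * c := fun a ha =>
    ⟨g₀, hg₀p, exists_mul_eq_of_mem ϖ p p' hinf hg₀p' ha⟩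
  obtain ⟨j, υ, hυ, huυ⟩ := exists_zpow_locU p hhtp ϖ hϖ hϖp hgen hu
  have hυ0 : υ ≠ 0 := hυ.ne_zero
  -- local generator of `n` modulo `p`
  obtain ⟨t, htn, hreg⟩ : ∃ t ∈ n, ∀ a ∈ n, ∃ s : B, s ∉ n ∧ s * a ∈ Ideal.span {ϖ, t} := by
    haveI := hD
    have hsurj : Function.Surjective (Ideal.Quotient.mk p) := Ideal.Quotient.mk_surjective
    have hM : (n.map (Ideal.Quotient.mk p)).IsMaximal := by
      haveI := hn
      exact Ideal.IsMaximal.map_of_surjective_of_ker_le hsurj (by rw [Ideal.mk_ker]; exact hpn)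
    obtain ⟨tb, htb, sb, hsb, hall⟩ :=
      Fermat.Agent.S18.B12.H84.exists_local_generator (n.map (Ideal.Quotient.mk p)) hM
    obtain ⟨t, rfl⟩ := hsurj tb
    obtain ⟨s, rfl⟩ := hsurj sb
    have hmem : ∀ b : B, Ideal.Quotient.mk p b ∈ n.map (Ideal.Quotient.mk p) ↔ b ∈ n := by
      intro b
      rw [← Ideal.mem_comap, Ideal.comap_map_of_surjective _ hsurj, ← RingHom.ker_eq_comap_bot,
        Ideal.mk_ker, sup_eq_left.2 hpn]
    have hsn : s ∉ n := fun h => hsb ((hmem s).2 h)
    refine ⟨t, (hmem t).1 htb, fun a ha => ⟨g₀ * s, ?_, ?_⟩⟩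
    · exact fun h => (hnp.mem_or_mem h).elim hg₀n hsn
    · have h1 := hall _ ((hmem a).2 ha)
      rw [Ideal.mem_span_singleton'] at h1
      obtain ⟨cb, hcb⟩ := h1
      obtain ⟨c, rfl⟩ := hsurj cb
      have hd : s * a - c * t ∈ p := by
        rw [← Ideal.Quotient.eq, map_mul, map_mul]
        exact hcb.symm
      obtain ⟨e, he⟩ := exists_mul_eq_of_mem ϖ p p' hinf hg₀p' hd
      rw [Ideal.mem_span_pair]
      refine ⟨e, g₀ * c, ?_⟩
      linear_combination (-1 : B) * he
  -- the local ring `A = B_n ⊆ F`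
  let A : Subalgebra B F :=
    Localization.subalgebra.ofField F n.primeCompl n.primeCompl_le_nonZeroDivisors
  haveI : IsLocalization.AtPrime A n := (inferInstance : IsLocalization n.primeCompl A)
  haveI : IsLocalRing A := IsLocalization.AtPrime.isLocalRing A n
  haveI : IsNoetherianRing A := IsLocalization.isNoetherianRing n.primeCompl A inferInstance
  have hmapp : Ideal.span {algebraMap B A ϖ} = Ideal.map (algebraMap B A) p := by
    apply le_antisymm
    · rw [Ideal.span_singleton_le_iff_mem]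
      exact Ideal.mem_map_of_mem _ hϖp
    · rw [Ideal.map_le_iff_le_comap]
      intro b hb
      obtain ⟨c, hc⟩ := exists_mul_eq_of_mem ϖ p p' hinf hg₀p' hb
      rw [Ideal.mem_comap]
      have hu : IsUnit (algebraMap B A g₀) :=
        IsLocalization.map_units A (⟨g₀, hg₀n⟩ : n.primeCompl)
      have h2 : algebraMap B A g₀ * algebraMap B A b ∈ Ideal.span {algebraMap B A ϖ} := by
        rw [← map_mul, hc, map_mul]
        exact Ideal.mul_mem_right _ _ (Ideal.mem_span_singleton_self _)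
      exact (Ideal.unit_mul_mem_iff_mem _ hu).1 h2
  have hprime : Prime (algebraMap B A ϖ) := by
    have h0 : algebraMap B A ϖ ≠ 0 := fun h =>
      hϖ (IsLocalization.injective A n.primeCompl_le_nonZeroDivisors (by rw [h, map_zero]))
    rw [← Ideal.span_singleton_prime h0, hmapp]
    refine IsLocalization.isPrime_of_isPrime_disjoint n.primeCompl A p hp ?_
    rw [Set.disjoint_left]
    intro x hx hx'
    exact hx (hpn hx')
  have hmax : maximalIdeal A = Ideal.span {algebraMap B A ϖ, algebraMap B A t} :=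
    Fermat.Agent.S18.H754.maximalIdeal_loc_eq_span_pair n A hϖn htn hreg
  haveI : UniqueFactorizationMonoid A :=
    Fermat.Agent.S18.H754.ufd_of_regular_pair _ _ hprime hmax
  -- `υ` is locally a unit times an `m`-th power at every prime element of `A`
  have hloc : ∀ π : A, Prime π → LocallyPow A m υ π := by
    intro π hπ
    haveI hP : (Ideal.span {π}).IsPrime := (Ideal.span_singleton_prime hπ.ne_zero).2 hπ
    have hht : (Ideal.span {π} : Ideal A).height = 1 := by
      apply le_antisymm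
      · refine Ideal.height_le_one_of_isPrincipal_of_mem_minimalPrimes (Ideal.span {π}) _ ?_
        rw [Ideal.minimalPrimes_eq_subsingleton_self]
        exact Set.mem_singleton _
      · rw [Order.one_le_iff_pos, pos_iff_ne_zero]
        intro h0
        rw [Ideal.height_eq_zero_iff, IsDomain.minimalPrimes_eq_singleton_bot] at h0
        rw [Set.mem_singleton_iff, Ideal.span_singleton_eq_bot] at h0
        exact hπ.ne_zero h0
    set 𝔭 : Ideal B := (Ideal.span {π} : Ideal A).under B with h𝔭def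
    haveI h𝔭 : 𝔭.IsPrime := inferInstance
    have hht' : 𝔭.height = 1 := by
      rw [h𝔭def, IsLocalization.height_under n.primeCompl, hht]
    have h𝔭n : 𝔭 ≤ n := by
      intro b hb
      by_contra hbn
      have hbu : IsUnit (algebraMap B A b) :=
        IsLocalization.map_units A (⟨b, hbn⟩ : n.primeCompl)
      have hb' : algebraMap B A b ∈ Ideal.span {π} := hb
      exact hP.ne_top (Ideal.eq_top_of_isUnit_mem _ hb' hbu)
    have hmemdvd : ∀ b : B, π ∣ algebraMap B A b → b ∈ 𝔭 := by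
      intro b hb
      rw [h𝔭def, Ideal.under_def, Ideal.mem_comap, Ideal.mem_span_singleton]
      exact hb
    -- elementwise statement at `𝔭`
    have key : ∃ t : F, ∃ a s : B, a ∉ 𝔭 ∧ s ∉ 𝔭 ∧
        υ * t ^ m * algebraMap B F s = algebraMap B F a := by
      by_cases hw𝔭 : ϖ ∈ 𝔭
      · -- vertical: `𝔭 = p`
        have hle : p * p' ≤ 𝔭 := by
          refine le_trans Ideal.mul_le_inf ?_
          rw [hinf, Ideal.span_singleton_le_iff_mem]
          exact hw𝔭
        have hp𝔭 : p ≤ 𝔭 := by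
          rcases (Ideal.IsPrime.mul_le h𝔭).1 hle with h | h
          · exact h
          · exact absurd (le_trans h h𝔭n) hp'n
        haveI : p.FiniteHeight := Ideal.finiteHeight_of_isNoetherianRing p
        have hpeq : p = 𝔭 := by
          refine Ideal.eq_of_le_of_height_le p hp𝔭 ?_
          rw [hht', hhtp]
        obtain ⟨a, s, ha, hs, has⟩ := hυ
        exact ⟨1, a, s, hpeq ▸ ha, hpeq ▸ hs, by rw [one_pow, mul_one]; exact has⟩
      · -- horizontal
        obtain ⟨t, a, s, ha, hs, has⟩ := hdiv 𝔭 h𝔭 hht' hw𝔭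
        have hpow : ∀ i : ℕ, ϖ ^ i ∉ 𝔭 := fun i hi => hw𝔭 (h𝔭.mem_of_pow_mem i hi)
        have hυu : υ = u * (algebraMap B F ϖ ^ j)⁻¹ := by
          rw [huυ, mul_assoc, mul_inv_cancel₀ (zpow_ne_zero _ hϖF), mul_one]
        obtain ⟨i, hi | hi⟩ := Int.eq_nat_or_neg j
        · refine ⟨t, a, s * ϖ ^ i, ha, fun h => (h𝔭.mem_or_mem h).elim hs (hpow i), ?_⟩
          rw [hυu, hi, zpow_natCast, map_mul, map_pow, ← has]
          field_simp
        · refine ⟨t, a * ϖ ^ i, s, fun h => (h𝔭.mem_or_mem h).elim ha (hpow i), hs, ?_⟩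
          rw [hυu, hi, zpow_neg, zpow_natCast, inv_inv, map_mul, map_pow, ← has]
          ring
    obtain ⟨t, a, s, ha, hs, has⟩ := key
    refine ⟨t, algebraMap B A a, algebraMap B A s, fun hd => ha (hmemdvd a hd),
      fun hd => hs (hmemdvd s hd), ?_⟩
    rw [← IsScalarTower.algebraMap_apply, ← IsScalarTower.algebraMap_apply]
    exact has
  obtain ⟨s, hs0, ε, hε⟩ := Fermat.Agent.S18.H754.exists_unit_mul_pow (R := A) m hm υ hυ0 hloc
  -- `υ * s ^ m` is a unit at `n`
  have hUn : LocU n (υ * s ^ m) := by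
    have hne : υ * s ^ m ≠ 0 := mul_ne_zero hυ0 (pow_ne_zero _ hs0)
    refine locU_of_frac_of_inv_frac n hne ?_ ?_
    · rw [hε]
      exact (Fermat.Agent.S18.H438.mem_ofField_primeCompl_iff n _).1 (ε : A).2
    · have e : (υ * s ^ m)⁻¹ = algebraMap A F ((ε⁻¹ : Aˣ) : A) := by
        rw [hε]
        apply inv_eq_of_mul_eq_one_left
        rw [← map_mul, Units.inv_mul, map_one]
      rw [e]
      exact (Fermat.Agent.S18.H438.mem_ofField_primeCompl_iff n _).1 ((ε⁻¹ : Aˣ) : A).2
  -- `s` is a unit at `p`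
  have hsp : LocU p s := by
    obtain ⟨W, -, hW⟩ := Fermat.Agent.S18.H438.exists_dvr_of_height_one (F := F) p hhtp
    refine locU_of_pow p W hW hm ?_
    have h1 : LocU p (s ^ m * υ) := by
      rw [mul_comm]
      exact hUn.mono hpn
    exact h1.of_mul_left hυ
  refine ⟨-j, s, hs0, ?_, hsp⟩
  have e : u * algebraMap B F ϖ ^ (-j) * s ^ m = υ * s ^ m := by
    rw [huυ, mul_assoc υ, ← zpow_add₀ hϖF, add_neg_cancel, zpow_zero, mul_one]
  rw [e]
  exact hUn

end Fermat.Agent.Ribet.H399

end
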