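import Fermat.Agent.Ribet.H997.RedField
import Fermat.Agent.A2.H553.GaussA
import Fermat.Agent.A2.Mod.H708.Vinf
import Fermat.Agent.A2.Mod.H96.L12Lift
import Fermat.Agent.A2.Mod.H489.S1

/-!
# Row 38, W-EIS leaf CUSP, piece (II) (helper399): the reduction map `θ : V∞ → k((t))`

`A` a valuation subring of `ℚ̄` over `p`, `k = kA A`; `E ⊆ ℚ̄` a level with `R_E = A ∩ E`,
`V = V∞` the Gauss valuation ring of `F_{N,E}` (`Mod.IsVinf`).

* `thetaHom hV : ↥V →+* LaurentSeries (kA A)` : `f ↦` reduction of the `t`-expansion of `f`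
  (`H553.redA` of the coefficientwise inclusion into `ℚ̄((t))`);
* `thetaHom_eq_zero_iff` : the kernel is `w V` (`Mod.InW`);
* `isRedSer_thetaHom` : if `θ f ≠ 0` then `θ f` is a reduction (`H997.IsRedSer`) of `f`;
* `thetaHom_const`, `thetaHom_jE` : values on constants and on the generators `j_d`.
-/

set_option autoImplicit false
set_option linter.unusedSectionVars false
set_option linter.style.haveILetI false
set_option synthInstance.maxHeartbeats 400000
set_option maxHeartbeats 1600000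

noncomputable section

namespace Fermat.Agent.Ribet.H399

open AlgebraicCurve ModularCurve HahnSeries
open Fermat.Agent.S24 Fermat.Agent.A2.H708
open Fermat.Agent.Ribet.H884 Fermat.Agent.Ribet.H997
open Fermat.Agent.A2 Fermat.Agent.S28.H86

variable {A : ValuationSubring Kbar} {E : IntermediateField ℚ Kbar} {N : ℕ}

/-! ## Series level -/

/-- the `H708` normal-form data give membership in the Gauss ring of `H553`. -/
theorem mem_gaussA_of_incl {z : LaurentSeries Kbar} {U₁ U₂ : LaurentSeries A}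
    (h₂ : red A U₂ ≠ 0) (he : z * incl A U₂ = incl A U₁) : z ∈ H553.gaussA A :=
  ⟨U₁, U₂, h₂, he⟩

theorem redA_eq_of_incl {z : LaurentSeries Kbar} {U₁ U₂ : LaurentSeries A}
    (h₂ : red A U₂ ≠ 0) (he : z * incl A U₂ = incl A U₁) (hz : z ∈ H553.gaussA A) :
    H553.redA A ⟨z, hz⟩ = red A U₁ / red A U₂ :=
  H553.redA_eq ⟨z, hz⟩ U₁ U₂ h₂ he

theorem exists_incl_of_mem_gaussA {z : LaurentSeries Kbar} (hz : z ∈ H553.gaussA A) :
    ∃ U₁ U₂ : LaurentSeries A, red A U₂ ≠ 0 ∧ z * incl A U₂ = incl A U₁ := hz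

/-- an element of the Gauss ring with nonzero reduction: the reduction is a reduction in the
sense of `H997.IsRedSer`. -/
theorem isRedSer_redA {z : LaurentSeries Kbar} (hz : z ∈ H553.gaussA A)
    (h0 : H553.redA A ⟨z, hz⟩ ≠ 0) : IsRedSer A z (H553.redA A ⟨z, hz⟩) := by
  obtain ⟨U₁, U₂, h₂, he⟩ := exists_incl_of_mem_gaussA hz
  have hr := redA_eq_of_incl h₂ he hz
  have h₁ : red A U₁ ≠ 0 := by
    intro h
    rw [hr, h, zero_div] at h0
    exact h0 rfl
  refine ⟨1, U₁, U₂, one_ne_zero, h₁, h₂, ?_, ?_⟩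
  · rw [he, cst_one, one_mul]
  · rw [hr, div_mul_cancel₀ _ h₂]

/-- the coefficientwise inclusion of a Gauss-integral series over `R_E` lies in the Gauss ring
of `A`. -/
theorem coeffMap_mem_gaussA {f : LaurentSeries E}
    (hf : IsGaussInt (Mod.RE A E) (modularFunctionFieldFull N) f) :
    coeffMap (algebraMap E Kbar) f ∈ H553.gaussA A := by
  obtain ⟨U₁, U₂, h0, -, he⟩ := hf
  refine mem_gaussA_of_incl (U₁ := upA A E U₁) (U₂ := upA A E U₂) (red_upA_ne_zero E h0) ?_
  have := congrArg (coeffMap (algebraMap E Kbar)) he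
  rw [map_mul, ← incl_upA, ← incl_upA] at this
  exact this

/-! ## The reduction map on `V∞` -/

section Theta

variable {V : ValuationSubring (Mod.FE E N)}

/-- the coefficientwise inclusion `V∞ → gaussA A`. -/
def thetaPre (hV : Mod.IsVinf A E N V) : ↥V →+* ↥(H553.gaussA A) where
  toFun f := ⟨coeffMap (algebraMap E Kbar) ((f : Mod.FE E N) : LaurentSeries E),
    coeffMap_mem_gaussA ((hV f).mp f.2)⟩
  map_one' := Subtype.ext (map_one _)
  map_mul' _ _ := Subtype.ext (map_mul _ _ _)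
  map_zero' := Subtype.ext (map_zero _)
  map_add' _ _ := Subtype.ext (map_add _ _ _)

/-- **The reduction map** `θ : V∞ → k((t))`. -/
def thetaHom (hV : Mod.IsVinf A E N V) : ↥V →+* LaurentSeries (kA A) :=
  (H553.redA A).comp (thetaPre hV)

theorem thetaHom_apply (hV : Mod.IsVinf A E N V) (f : V) :
    thetaHom hV f = H553.redA A ⟨coeffMap (algebraMap E Kbar)
      ((f : Mod.FE E N) : LaurentSeries E), coeffMap_mem_gaussA ((hV f).mp f.2)⟩ := rfl

/-- if `θ f ≠ 0`, then `θ f` is a reduction of (the `t`-expansion over `ℚ̄` of) `f`. -/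
theorem isRedSer_thetaHom (hV : Mod.IsVinf A E N V) (f : V) (h0 : thetaHom hV f ≠ 0) :
    IsRedSer A (coeffMap (algebraMap E Kbar) ((f : Mod.FE E N) : LaurentSeries E))
      (thetaHom hV f) :=
  isRedSer_redA _ h0

/-- value on an `R_E`-integral series. -/
theorem thetaHom_of_incl (hV : Mod.IsVinf A E N V) (f : V) (U : LaurentSeries (Mod.RE A E))
    (hU : ((f : Mod.FE E N) : LaurentSeries E) = incl (Mod.RE A E) U) :
    thetaHom hV f = red A (upA A E U) := by
  rw [thetaHom_apply]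
  have he : coeffMap (algebraMap E Kbar) ((f : Mod.FE E N) : LaurentSeries E) *
      incl A (1 : LaurentSeries A) = incl A (upA A E U) := by
    rw [map_one, mul_one, hU, incl_upA]
  have h1 : red A (1 : LaurentSeries A) ≠ 0 := by
    rw [map_one]
    exact one_ne_zero
  rw [redA_eq_of_incl h1 he, map_one, div_one]

/-- value on a constant of `R_E`. -/
theorem thetaHom_const (hV : Mod.IsVinf A E N V) (r : Mod.RE A E)
    (hr : Mod.cE A E N r ∈ V) :
    thetaHom hV ⟨Mod.cE A E N r, hr⟩ = HahnSeries.C (IsLocalRing.residue A (toA' A E r)) := by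
  have hU : (((⟨Mod.cE A E N r, hr⟩ : V) : Mod.FE E N) : LaurentSeries E) =
      incl (Mod.RE A E) (cstA (Mod.RE A E) r) := by
    rw [incl_cstA]
    rfl
  rw [thetaHom_of_incl hV _ _ hU, upA_cstA, red_cstA]
  rfl

/-- the uniformiser reduces to `0`. -/
theorem thetaHom_unif (hV : Mod.IsVinf A E N V) {w : Mod.RE A E} (hw : Irreducible w)
    (hwV : Mod.cE A E N w ∈ V) : thetaHom hV ⟨Mod.cE A E N w, hwV⟩ = 0 := by
  rw [thetaHom_const]
  have : IsLocalRing.residue A (toA' A E w) = 0 := by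
    rw [residue_eq_zero_iff_not_isUnit', isUnit_toA'_iff]
    exact hw.not_isUnit
  rw [this, map_zero]

/-- value on the generator `j_d`. -/
theorem thetaHom_jE (hV : Mod.IsVinf A E N V) (d : ℕ) [NeZero d] (hd : d ∣ N)
    (hj : Mod.jE E N d hd ∈ V) :
    thetaHom hV ⟨Mod.jE E N d hd, hj⟩ = qExpand (kA A) d (jqModC (kA A)) := by
  have hU : (((⟨Mod.jE E N d hd, hj⟩ : V) : Mod.FE E N) : LaurentSeries E) =
      incl (Mod.RE A E) (castA (Mod.RE A E) (jInt d)) :=
    Mod.H708.coe_jE_eq (P := A) (E := E) N d hd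
  rw [thetaHom_of_incl hV _ _ hU]
  have h1 : upA A E (castA (Mod.RE A E) (jInt d)) = coeffMap (Int.castRingHom A) (jqNModC ℤ d) := by
    show coeffMap (toA' A E) (coeffMap (Int.castRingHom (Mod.RE A E)) (jInt d)) = _
    rw [coeffMap_coeffMap]
    have : (toA' A E).comp (Int.castRingHom (Mod.RE A E)) = Int.castRingHom A :=
      RingHom.ext_int _ _
    rw [this]
    rfl
  rw [h1]
  exact Mod.H96.red_castA_jqNModC A d

/-- **The kernel of `θ` is the maximal ideal of `V∞`.** -/
theorem thetaHom_eq_zero_iff (hV : Mod.IsVinf A E N V) {w : Mod.RE A E} (hw : Irreducible w)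
    (hu : H48.IsUnif V (Mod.cE A E N w)) (f : V) :
    thetaHom hV f = 0 ↔ (f : Mod.FE E N)⁻¹ ∉ V ∨ (f : Mod.FE E N) = 0 := by
  constructor
  · intro h0
    by_contra hcon
    push Not at hcon
    obtain ⟨hinv, hf0⟩ := hcon
    have h1 : f * ⟨(f : Mod.FE E N)⁻¹, hinv⟩ = (1 : V) := Subtype.ext (mul_inv_cancel₀ hf0)
    have h2 := congrArg (thetaHom hV) h1
    rw [map_mul, h0, zero_mul, map_one] at h2
    exact zero_ne_one h2
  · rintro (h | h)
    · have hg : (f : Mod.FE E N) * (Mod.cE A E N w)⁻¹ ∈ V := hu.gen _ f.2 h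
      have h1 : f = ⟨Mod.cE A E N w, hu.mem⟩ * ⟨(f : Mod.FE E N) * (Mod.cE A E N w)⁻¹, hg⟩ := by
        apply Subtype.ext
        show (f : Mod.FE E N) = Mod.cE A E N w * ((f : Mod.FE E N) * (Mod.cE A E N w)⁻¹)
        rw [mul_comm (f : Mod.FE E N), ← mul_assoc, mul_inv_cancel₀ hu.ne_zero, one_mul]
      rw [h1, map_mul, thetaHom_unif hV hw, zero_mul]
    · have : f = 0 := Subtype.ext h
      rw [this, map_zero]

theorem thetaHom_ne_zero_of_inv_mem (hV : Mod.IsVinf A E N V) (f : V)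
    (hinv : (f : Mod.FE E N)⁻¹ ∈ V) (hf0 : (f : Mod.FE E N) ≠ 0) : thetaHom hV f ≠ 0 := by
  intro h0
  have h1 : f * ⟨(f : Mod.FE E N)⁻¹, hinv⟩ = (1 : V) := Subtype.ext (mul_inv_cancel₀ hf0)
  have h2 := congrArg (thetaHom hV) h1
  rw [map_mul, h0, zero_mul, map_one] at h2
  exact zero_ne_one h2

end Theta

/-! ## Level `M * p`: `θ` has values in `k(X₀(M))` -/

section Level

variable {M p : ℕ} [NeZero M] [NeZero p] {V : ValuationSubring (Mod.FE E (M * p))}

theorem thetaHom_mem_fullC (hp : p.Prime) (hpM : ¬ p ∣ M) (hA : A.LiesOverPrime p)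
    (hV : Mod.IsVinf A E (M * p) V) (f : V) :
    thetaHom hV f ∈ modularFunctionFieldFullC (kA A) M := by
  by_cases h0 : thetaHom hV f = 0
  · rw [h0]
    exact zero_mem _
  · have h1 := isRedSer_thetaHom hV f h0
    refine isRedSer_mem_of_level_mul hp hpM hA ?_ h1
    exact Fermat.Agent.S18.H602.coeffMap_mem_laurentBaseChange
      (modularFunctionFieldFull (M * p)) _ (f : Mod.FE E (M * p)).2

/-- **The reduction map with values in `k(X₀(M))`.** -/
def thetaK (hp : p.Prime) (hpM : ¬ p ∣ M) (hA : A.LiesOverPrime p)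
    (hV : Mod.IsVinf A E (M * p) V) : ↥V →+* ↥(modularFunctionFieldFullC (kA A) M) :=
  (thetaHom hV).codRestrict (modularFunctionFieldFullC (kA A) M).toSubring
    (fun f => thetaHom_mem_fullC hp hpM hA hV f)

theorem coe_thetaK (hp : p.Prime) (hpM : ¬ p ∣ M) (hA : A.LiesOverPrime p)
    (hV : Mod.IsVinf A E (M * p) V) (f : V) :
    ((thetaK hp hpM hA hV f : modularFunctionFieldFullC (kA A) M) : LaurentSeries (kA A)) =
      thetaHom hV f := rfl

end Level

end Fermat.Agent.Ribet.H399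

end
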